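import Mathlib
import Fermat.Prelude.Def_ModularCurve_HeckeModule
import Fermat.Prelude.Def_ModularCurve_ReductionModL
import Fermat.Prelude.Def_CuspForm_HeckeGaloisRepDatum
import Fermat.Prelude.Def_FreyPackage_EigenformResidualAttachment

/-!
# ESJ — interfaces between the layers of the Eichler–Shimura trunk

Targets: S37, S18, S29, S42, S30, S31.  Every predicate below is a `Prop`; a layer PROVES
its predicate(s) (for all admissible parameters) and CONSUMES the predicates of the layers
below as hypotheses.  Nothing here is a `structure`/`class`, so the predicates can be passed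
around as ordinary hypotheses (as `eichlerShimura_of` was for S21).

Layers and the predicate each one owns:

* RED (helper18)        : `RedTorsionInjective`  (= S18 for an arbitrary place reduction),
                          `ReductionInputsModL` (Prelude) with inertia/Frobenius compatibility,
                          packaged with ES-CONG in `LocalESData`.
* ES-CONG (helper43)    : `HeckeInputsAlong` (Prelude), `HeckeGaloisCommute`, the congruence
                          clause of `LocalESData`.
* JAC-TORS (helper92)   : `TorsionFinite`, `TorsionFiniteLevel`, `EigenFunctionalModP`.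
* FROB (helper76)       : `FrobGenerating`.
* REP (helper55)        : consumes `ResidualESModule` + `FrobGenerating`, produces S29/S42
                          (and the adic analogue for S30/S31, see `Interfaces2` later).
-/

set_option autoImplicit false

namespace Fermat.Agent.ESJ

open ModularCurve AlgebraicCurve

/-- The absolute Galois group of `ℚ` (as used by all frozen statements). -/
abbrev GQ : Type := AlgebraicClosure ℚ ≃ₐ[ℚ] AlgebraicClosure ℚ

/-! ## RED: reduction of divisor classes -/

set_option synthInstance.maxHeartbeats 400000 in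
set_option maxHeartbeats 1000000 in
/-- **RED-INJ** (the content of S18, stated for an ARBITRARY place reduction `r`, because
the Prelude's `reductionModL` is defined through `Classical.choose`): reduction of divisor
classes along `r` is injective on torsion of order prime to `ℓ`. -/
def RedTorsionInjective (N ℓ : ℕ) [NeZero N] (A : ValuationSubring (AlgebraicClosure ℚ)) : Prop :=
  ∀ (r : Place (AlgebraicClosure ℚ) (modularFunctionFieldBar N) →
        Place (IsLocalRing.ResidueField A)
          (modularFunctionFieldFullC (IsLocalRing.ResidueField A) N))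
    (hr : IsPlaceReductionModL A N r)
    (hgen : PrincipalGeneratedByIntegral A (IsLocalRing.residue A) N)
    (m : ℕ), ¬ ℓ ∣ m → ∀ z : JZero N, m • z = 0 →
      reductionPic0Along r hr hgen z = 0 → z = 0

/-! ## ES-CONG: Hecke correspondences and the congruence relation -/

/-- **HECKE-GAL**: the Hecke correspondences on `JZero N` commute with the coefficientwise
Galois action (formal: `α`, `β` are defined over `ℚ`). -/
def HeckeGaloisCommute (N : ℕ) [NeZero N] : Prop :=
  ∀ (ℓ : Nat.Primes) (σ : GQ) (x : JZero N),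
    heckeOperatorBar N ℓ (σ • x) = σ • heckeOperatorBar N ℓ x

/-- **LOCAL-ES** at a prime `ℓ ∤ N p` and a valuation subring `A` of `ℚ̄` over `ℓ`:
a "reduction map" `red` out of `JZero N` (in the intended proof:
`reductionPic0Along r₀` into `JZeroC (ResidueField A) N` for an explicit place reduction `r₀`)
together with a "Frobenius" `Φ` on the target such that

1. `red` is invariant under the inertia group of `A`;
2. `red ∘ σ = Φ ∘ red` for every Frobenius element `σ` of `A`;
3. `red` is injective on `p`-power torsion  (RED-INJ applied to `r₀`);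
4. Eichler–Shimura congruence `Φ ∘ red ∘ T_ℓ = (Φ² + ℓ) ∘ red`
   (a consequence of `red ∘ T_ℓ = (Φ + ℓ Φ⁻¹) ∘ red`). -/
def LocalESData (N p : ℕ) [NeZero N] (ℓ : ℕ) (hℓ : ℓ.Prime)
    (A : ValuationSubring (AlgebraicClosure ℚ)) : Prop :=
  ∃ (X : Type) (_ : AddCommGroup X) (red : JZero N →+ X) (Φ : X →+ X),
    (∀ σ ∈ A.inertiaSubgroupIn ℚ, ∀ x : JZero N, red (σ • x) = red x) ∧
    (∀ σ : GQ, A.IsFrobeniusAt σ ℓ → ∀ x : JZero N, red (σ • x) = Φ (red x)) ∧
    (∀ x : JZero N, (∃ n : ℕ, p ^ n • x = 0) → red x = 0 → x = 0) ∧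
    (∀ x : JZero N, Φ (red (heckeOperatorBar N ⟨ℓ, hℓ⟩ x)) = Φ (Φ (red x)) + ℓ • red x)

/-- **TORS-ES**: what the local data gives on `p`-power torsion of `JZero N`
(the Prelude's `UnramifiedOutside` + `FrobeniusQuadratic`, but stated with the operators
`heckeOperatorBar` directly, so that no `HeckeAlg`-module structure — hence no commutativity
of the Hecke operators on all of `JZero N` — is needed). -/
def TorsionESRelation (N p : ℕ) [NeZero N] : Prop :=
  ∀ (ℓ : ℕ) (hℓ : ℓ.Prime), ¬ ℓ ∣ N * p →
    ∀ A : ValuationSubring (AlgebraicClosure ℚ), A.LiesOverPrime ℓ →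
      (∀ σ ∈ A.inertiaSubgroupIn ℚ, ∀ x : JZero N, (∃ n : ℕ, p ^ n • x = 0) → σ • x = x) ∧
      (∀ σ : GQ, A.IsFrobeniusAt σ ℓ → ∀ x : JZero N, (∃ n : ℕ, p ^ n • x = 0) →
        σ • σ • x - heckeOperatorBar N ⟨ℓ, hℓ⟩ (σ • x) + ℓ • x = 0)

/-! ## JAC-TORS: torsion of `JZero N` -/

/-- **TORS-FIN**: the `n`-torsion of `JZero N` is finite. -/
def TorsionFinite (N n : ℕ) : Prop :=
  (Pic0.torsion (AlgebraicClosure ℚ) (modularFunctionFieldBar N) n : Set (JZero N)).Finite

/-- **TORS-LEVEL**: the Galois action on the `n`-torsion of `JZero N` factors through a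
finite extension of `ℚ`. -/
def TorsionFiniteLevel (N n : ℕ) : Prop :=
  ∃ L : IntermediateField ℚ (AlgebraicClosure ℚ), FiniteDimensional ℚ L ∧
    ∀ σ : GQ, (∀ x ∈ L, σ x = x) →
      ∀ z ∈ Pic0.torsion (AlgebraicClosure ℚ) (modularFunctionFieldBar N) n, σ • z = z

/-- **EIGEN-FUNCTIONAL mod p**: for a normalized eigenform `g` of level `Γ₀(N)` and a ring
homomorphism `φ : ℤ̄ → k` into a field of characteristic `p`, the system of eigenvalues
`(φ (a_ℓ(g)))_{ℓ ∤ N p}` occurs in `Hom(J₀(N)[p], k)`: there is a NONZERO additive map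
`lam : J₀(N)[p] → k` with `lam ∘ T_ℓ = φ(a_ℓ) · lam` for all primes `ℓ ∤ N p`. -/
def EigenFunctionalModP (N p : ℕ) [NeZero N] : Prop :=
  ∀ (g : CuspForm (CongruenceSubgroup.Gamma0 N) 2), g.IsNormalizedEigenform →
    ∀ (k : Type) [Field k] [CharP k p] (φ : integralClosure ℤ ℂ →+* k),
      ∃ lam : Pic0.torsion (AlgebraicClosure ℚ) (modularFunctionFieldBar N) p →+ k,
        lam ≠ 0 ∧
        ∀ ℓ : Nat.Primes, ¬ (ℓ : ℕ) ∣ N * p →
          ∃ a : integralClosure ℤ ℂ, (a : ℂ) = ModularFormClass.qCoeff g ℓ ∧
            ∀ x y : Pic0.torsion (AlgebraicClosure ℚ) (modularFunctionFieldBar N) p,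
              (y : JZero N) = heckeOperatorBar N ℓ (x : JZero N) → lam y = φ a * lam x

/-! ## FROB: Frobenius density, existence form -/

/-- **FROB** (statement of `Fermat.Agent.Frob.Main`, helper76): every element of `G_ℚ`
generates, on any finite level, the same cyclic group as some Frobenius element at a
prime outside a given finite set. -/
def FrobGenerating : Prop :=
  ∀ (F : IntermediateField ℚ (AlgebraicClosure ℚ)) [FiniteDimensional ℚ F] (S : Finset ℕ)
    (g : GQ),
    ∃ ℓ : ℕ, ℓ.Prime ∧ ℓ ∉ S ∧
      ∃ (A : ValuationSubring (AlgebraicClosure ℚ)) (σ : GQ) (k j : ℕ),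
        A.LiesOverPrime ℓ ∧ A.IsFrobeniusAt σ ℓ ∧
          (∀ x ∈ F, g x = (σ ^ k) x) ∧ (∀ x ∈ F, σ x = (g ^ j) x)

/-! ## REP: from an Eichler–Shimura module to a two-dimensional representation -/

/-- **RES-ES-MODULE** (input of REP for S29/S42): a nonzero finite-dimensional
representation `W` of `G_ℚ` over `k`, factoring through a finite level, unramified outside
`N p`, on which every Frobenius element `σ` at `ℓ ∤ N p` satisfies
`σ² - φ(a_ℓ(g)) σ + ℓ = 0`. -/
def ResidualESModule {N : ℕ} (g : CuspForm (CongruenceSubgroup.Gamma0 N) 2) (p : ℕ)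
    (k : Type) [Field k] (φ : integralClosure ℤ ℂ →+* k) : Prop :=
  ∃ (W : Type) (_ : AddCommGroup W) (_ : Module k W) (_ : Module.Finite k W)
    (_ : Nontrivial W) (ρ : GQ →* Module.End k W),
    GaloisFactorsThroughFiniteLevel ρ ∧
    ∀ ℓ : ℕ, ℓ.Prime → ¬ ℓ ∣ N * p →
      ∀ A : ValuationSubring (AlgebraicClosure ℚ), A.LiesOverPrime ℓ →
        (∀ σ ∈ A.inertiaSubgroupIn ℚ, ρ σ = 1) ∧
        ∀ σ : GQ, A.IsFrobeniusAt σ ℓ →
          ∃ a : integralClosure ℤ ℂ, (a : ℂ) = ModularFormClass.qCoeff g ℓ ∧
            ρ σ * ρ σ - φ a • ρ σ + (ℓ : k) • (1 : Module.End k W) = 0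

end Fermat.Agent.ESJ
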