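import Mathlib
import Fermat.Prelude.Def_ModularCurve_HeckeOperatorTotal
import Fermat.Agent.S24.DegTop
import Fermat.Agent.S24.ARest
import Fermat.Agent.Lib.FF.ExtPrincipal
import Fermat.Agent.Lib.FF.ExtNorm

/-!
# The Hecke inputs for `X₀(N)` over `ℚ̄`

`ModularCurve.HeckeInputsAlong (AlgebraicClosure ℚ) N ℓ`: the two degeneracy maps
`α, β : ℚ̄(X₀(N)) → ℚ̄(X₀(Nℓ))` are finite, `ℚ̄(X₀(Nℓ))` has principal divisors, the fundamental
identity holds along `β` and the norm formula holds along `α`.

General part (`K` algebraically closed of characteristic zero, `φ : F →ₐ[K] F'` a `K`-embedding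
of function fields of one variable over `K`):

* `finiteAlong` : `F'` is finite over `F` along `φ`.
* `isIntegral_of_finiteAlong`, `fundamentalIdentityAlong`, `normFormulaAlong`.

Modular part:

* `hasPrincipalDivisors_bar`, `deg_eq_one_bar`, `heckeAlphaBarIntegral`, `heckeBetaBarIntegral`,
  `heckeInputsAlong_bar`.
-/

set_option autoImplicit false

noncomputable section

namespace Fermat.Agent.ESJ.HeckeInputs

open AlgebraicCurve ModularCurve IntermediateField
open Fermat.Agent.S24

section General

variable {K F F' : Type*} [Field K] [Field F] [Field F'] [Algebra K F] [Algebra K F']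

/-- A `K`-embedding `φ : F → F'` of function fields of one variable over `K` is finite: if `x` is
transcendental in `F` and `F'` is finite over some `K(x')`, then `F'` is finite over `φ F`. -/
theorem finiteAlong (φ : F →ₐ[K] F') {x : F} (hx : Transcendental K x) (x' : F')
    [FiniteDimensional K⟮x'⟯ F'] : FiniteAlong K φ := by
  have hz : Transcendental K (φ x) := by
    intro halg
    exact hx ((isAlgebraic_algHom_iff φ φ.injective).1 halg)
  haveI hfd : FiniteDimensional K⟮φ x⟯ F' := finiteDimensional_of_transcendental x' hz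
  obtain ⟨S, hS⟩ := (Module.Finite.fg_top : (⊤ : Submodule K⟮φ x⟯ F').FG)
  have hle : K⟮φ x⟯ ≤ φ.fieldRange := by
    rw [adjoin_simple_le_iff]
    exact ⟨x, rfl⟩
  show letI := algebraAlong φ; Module.Finite F F'
  letI := algebraAlong φ
  refine ⟨⟨S, ?_⟩⟩
  rw [eq_top_iff]
  intro f hftop
  clear hftop
  have hf : f ∈ Submodule.span K⟮φ x⟯ (S : Set F') := hS ▸ Submodule.mem_top
  induction hf using Submodule.span_induction with
  | mem s hs => exact Submodule.subset_span hs
  | zero => exact zero_mem _
  | add a b _ _ ha hb => exact add_mem ha hb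
  | smul c a _ ha =>
    obtain ⟨d, hd⟩ := hle c.2
    have hca : c • a = d • a := by
      rw [Algebra.smul_def, Algebra.smul_def]
      show (c : F') * a = φ d * a
      rw [← hd]
      rfl
    rw [hca]
    exact Submodule.smul_mem _ d ha

/-- A finite embedding is integral. -/
theorem isIntegral_of_finiteAlong (φ : F →ₐ[K] F') (hfin : FiniteAlong K φ) :
    φ.toRingHom.IsIntegral := by
  letI := algebraAlong φ
  haveI : Module.Finite F F' := hfin
  haveI : Algebra.IsIntegral F F' := Algebra.IsIntegral.of_finite F F'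
  intro y
  exact Algebra.IsIntegral.isIntegral (R := F) y

variable [IsAlgClosed K] [CharZero K]

/-- The fundamental identity along a finite embedding of function fields. -/
theorem fundamentalIdentityAlong [HasPrincipalDivisors K F'] (φ : F →ₐ[K] F')
    (hφ : φ.toRingHom.IsIntegral) (hfin : FiniteAlong K φ)
    (x : F) [Algebra.IsAlgebraic K⟮x⟯ F] (x' : F') [Algebra.IsAlgebraic K⟮x'⟯ F'] :
    FundamentalIdentityAlong K φ hφ := by
  letI := algebraAlong φ
  haveI := isScalarTower_along φ
  haveI := isIntegral_along φ hφ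
  haveI : FiniteDimensional F F' := hfin
  haveI : SumRamificationInertia K F F' := Fermat.Agent.Lib.FF.ExtNorm.sumRamificationInertia x x'
  exact (inferInstance : FundamentalIdentity K F F')

/-- The norm formula along a finite embedding of function fields. -/
theorem normFormulaAlong [HasPrincipalDivisors K F'] (φ : F →ₐ[K] F')
    (hfin : FiniteAlong K φ)
    (x : F) [Algebra.IsAlgebraic K⟮x⟯ F] (x' : F') [Algebra.IsAlgebraic K⟮x'⟯ F'] :
    NormFormulaAlong K φ hfin := by
  letI := algebraAlong φ
  haveI := isScalarTower_along φ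
  haveI : Module.Finite F F' := hfin
  haveI : Algebra.IsIntegral F F' := Algebra.IsIntegral.of_finite F F'
  exact Fermat.Agent.Lib.FF.ExtNorm.pushforwardNormFormula x x'

end General

section Modular

variable (N : ℕ) [NeZero N]

/-- `ℚ̄(X₀(N))` is algebraic over `ℚ̄(j)`. -/
theorem isAlgebraic_bar : Algebra.IsAlgebraic KQ⟮jBar N⟯ (FN N) :=
  haveI := finiteDimensional_jBar N
  Algebra.IsAlgebraic.of_finite _ _

/-- `ℚ̄(X₀(N))` has principal divisors. -/
theorem hasPrincipalDivisors_bar :
    HasPrincipalDivisors (AlgebraicClosure ℚ) (modularFunctionFieldBar N) :=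
  haveI := finiteDimensional_jBar N
  Fermat.Agent.Lib.FF.Ext.hasPrincipalDivisors (jBar N)

/-- Every place of `ℚ̄(X₀(N))` has degree one. -/
theorem deg_eq_one_bar (P : Place (AlgebraicClosure ℚ) (modularFunctionFieldBar N)) :
    P.deg = 1 :=
  haveI := isAlgebraic_bar N
  ARest.deg_eq_one (jBar N) P

variable (ℓ : ℕ) [NeZero ℓ]

/-- The degeneracy map `α` is finite. -/
theorem finiteAlong_heckeAlphaBar :
    FiniteAlong (AlgebraicClosure ℚ) (heckeAlphaBar (AlgebraicClosure ℚ) N ℓ) :=
  haveI := finiteDimensional_jBar (N * ℓ)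
  finiteAlong _ (transcendental_jBar N) (jBar (N * ℓ))

/-- The degeneracy map `β` is finite. -/
theorem finiteAlong_heckeBetaBar :
    FiniteAlong (AlgebraicClosure ℚ) (heckeBetaBar (AlgebraicClosure ℚ) N ℓ) :=
  haveI := finiteDimensional_jBar (N * ℓ)
  finiteAlong _ (transcendental_jBar N) (jBar (N * ℓ))

theorem heckeAlphaBarIntegral : HeckeAlphaBarIntegral (AlgebraicClosure ℚ) N ℓ :=
  isIntegral_of_finiteAlong _ (finiteAlong_heckeAlphaBar N ℓ)

theorem heckeBetaBarIntegral : HeckeBetaBarIntegral (AlgebraicClosure ℚ) N ℓ :=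
  isIntegral_of_finiteAlong _ (finiteAlong_heckeBetaBar N ℓ)

/-- **The Hecke inputs over `ℚ̄`** (finiteness of the degeneracy maps, principal divisors, the
fundamental identity along `β` and the norm formula along `α`). -/
theorem heckeInputsAlong_bar : HeckeInputsAlong (AlgebraicClosure ℚ) N ℓ := by
  haveI := isAlgebraic_bar N
  haveI := isAlgebraic_bar (N * ℓ)
  haveI := hasPrincipalDivisors_bar (N * ℓ)
  exact heckeInputsAlong_intro (heckeAlphaBarIntegral N ℓ) (heckeBetaBarIntegral N ℓ)
    (fundamentalIdentityAlong _ _ (finiteAlong_heckeBetaBar N ℓ) (jBar N) (jBar (N * ℓ)))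
    (finiteAlong_heckeAlphaBar N ℓ)
    (normFormulaAlong _ _ (jBar N) (jBar (N * ℓ)))

/-- The transposed inputs: the fundamental identity along `α` and the norm formula along `β`. -/
theorem fundamentalIdentityAlong_heckeAlphaBar :
    haveI := hasPrincipalDivisors_bar (N * ℓ)
    FundamentalIdentityAlong (AlgebraicClosure ℚ) (heckeAlphaBar (AlgebraicClosure ℚ) N ℓ)
      (heckeAlphaBarIntegral N ℓ) := by
  haveI := isAlgebraic_bar N
  haveI := isAlgebraic_bar (N * ℓ)
  haveI := hasPrincipalDivisors_bar (N * ℓ)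
  exact fundamentalIdentityAlong _ _ (finiteAlong_heckeAlphaBar N ℓ) (jBar N) (jBar (N * ℓ))

theorem normFormulaAlong_heckeBetaBar :
    NormFormulaAlong (AlgebraicClosure ℚ) (heckeBetaBar (AlgebraicClosure ℚ) N ℓ)
      (finiteAlong_heckeBetaBar N ℓ) := by
  haveI := isAlgebraic_bar N
  haveI := isAlgebraic_bar (N * ℓ)
  haveI := hasPrincipalDivisors_bar (N * ℓ)
  exact normFormulaAlong _ _ (jBar N) (jBar (N * ℓ))

end Modular

end Fermat.Agent.ESJ.HeckeInputs
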