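import Mathlib
import Fermat.Agent.ESJ.Interfaces

/-!
# ESJ — S18 from `RedTorsionInjective`

The frozen statement S18 is about the Prelude's `reductionModL`, which is
`reductionPic0Along` for the place reduction picked by `Classical.choose` out of the
hypothesis `ReductionInputsModL A N`.  So S18 is `RedTorsionInjective` applied to that `r`.
-/

set_option autoImplicit false

namespace Fermat.Agent.ESJ

open ModularCurve AlgebraicCurve

set_option synthInstance.maxHeartbeats 400000 in
set_option maxHeartbeats 1000000 in
/-- S18 from RED-INJ. -/
theorem eq_zero_of_reductionModL_eq_zero_of_redTorsionInjective (N : ℕ) [NeZero N] {ℓ : ℕ}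
    (A : ValuationSubring (AlgebraicClosure ℚ)) (H : RedTorsionInjective N ℓ A)
    (h : ModularCurve.ReductionInputsModL A N) (m : ℕ) (hm : ¬ ℓ ∣ m) (z : ModularCurve.JZero N)
    (hmz : m • z = 0) (hz : ModularCurve.reductionModL A N z = 0) :
    z = 0 := by
  refine H h.choose h.choose_spec.1 h.choose_spec.2 m hm z hmz ?_
  have e := reductionAlong_eq h
  rw [← hz]
  exact (congrArg (fun f => f z) e).symm

end Fermat.Agent.ESJ
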