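import Mathlib
import Fermat.Agent.ESJ.Interfaces
import Fermat.Agent.ESJ.S18Assembly
import Fermat.Agent.ESJ.Rep.TorsionES
import Fermat.Agent.ESJ.Cong.LocalES
import Fermat.Agent.ESJ.Cong.Comm
import Fermat.Agent.ESJ.Cong.GaloisRed
import Fermat.Agent.ESJ.Cong.ESCongFinal
import Fermat.Agent.ESJ.HeckeInputs
import Fermat.Agent.Lib.FF.RRModular

/-!
# ESJ — `TorsionESRelation` from the two outputs of the RED layer

The trunk above the reduction layer (`TateDatum`, hence S29/S30/S42/S31) consumes the
predicate `TorsionESRelation N p` of `Interfaces.lean`.  This file closes the gap between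
that predicate and the two theorems the RED layer delivers:

* **R1** `RedTorsionInjective N ℓ A`   (S18 for an arbitrary place reduction),
* **R2** `ModularCurve.ReductionInputsModL A N`   (existence of a place reduction),

for every prime `ℓ ∤ N` and every valuation subring `A` of `ℚ̄` over `ℓ`.  Everything
else (Galois equivariance of the reduction, the Eichler–Shimura congruence, commutation of
Hecke and Galois, Riemann's inequality, the Hecke inputs) is already a theorem.

* `torsionESRelation_of_localESData` : formal step `LocalESData ⇒ TorsionESRelation`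
  (helper73, `ESJ/Rep/TorsionES.lean`);
* `localESData_of_red`               : `R1 + R2 ⇒ LocalESData`;
* `torsionESRelation_of_red`         : `R1 + R2 ⇒ TorsionESRelation N p` for every `p`.
-/

set_option autoImplicit false

namespace Fermat.Agent.ESJ

open ModularCurve AlgebraicCurve

set_option synthInstance.maxHeartbeats 400000 in
set_option maxHeartbeats 1000000 in
/-- **R1 + R2 ⇒ `LocalESData`**: at a prime `ℓ ∤ N p` and a valuation subring `A` over `ℓ`,
existence of a place reduction (R2) and injectivity of the reduction on prime-to-`ℓ`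
torsion (R1) give the local Eichler–Shimura data, with `red := reductionModL A N` and
`Φ :=` the coefficientwise Frobenius of the special fibre. -/
theorem localESData_of_red (N p ℓ : ℕ) [NeZero N] (hℓ : ℓ.Prime) (hℓNp : ¬ ℓ ∣ N * p)
    (A : ValuationSubring (AlgebraicClosure ℚ)) (hA : A.LiesOverPrime ℓ)
    (hR2 : ReductionInputsModL A N) (hR1 : RedTorsionInjective N ℓ A) :
    LocalESData N p ℓ hℓ A := by
  have hℓN : ¬ ℓ ∣ N := fun h => hℓNp (Dvd.dvd.mul_right h p)
  have : NeZero ℓ := ⟨hℓ.ne_zero⟩
  have := Fermat.Agent.ESJ.HeckeInputs.hasPrincipalDivisors_bar N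
  have hdeg := Fermat.Agent.ESJ.HeckeInputs.deg_eq_one_bar N
  have hRR : Cong.RRLite (AlgebraicClosure ℚ) (modularFunctionFieldBar N) :=
    Fermat.Agent.Lib.FF.RR.rrLite_modular N
  refine Cong.localESData_of N p ℓ hℓ hℓNp A hA ?_ ?_ ?_
  · intro m hm z hmz hz
    exact eq_zero_of_reductionModL_eq_zero_of_redTorsionInjective N A hR1 hR2 m hm z hmz hz
  · intro σ hσ x
    exact Cong.reductionModL_galois A N hdeg hRR hR2 σ hσ x
  · intro τ hτ x
    exact Cong.ConjAnalytic.reductionModL_heckeOperator N ℓ hℓ hℓN A hA hdeg hRR hR2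
      (Fermat.Agent.ESJ.HeckeInputs.heckeInputsAlong_bar N ℓ) τ hτ x

/-- **R1 + R2 ⇒ `TorsionESRelation N p`** (for every `p`): the single statement through
which the representation-theoretic part of the trunk consumes the reduction layer. -/
theorem torsionESRelation_of_red (N p : ℕ) [NeZero N]
    (hR2 : ∀ ℓ : ℕ, ℓ.Prime → ¬ ℓ ∣ N → ∀ A : ValuationSubring (AlgebraicClosure ℚ),
      A.LiesOverPrime ℓ → ReductionInputsModL A N)
    (hR1 : ∀ ℓ : ℕ, ℓ.Prime → ¬ ℓ ∣ N → ∀ A : ValuationSubring (AlgebraicClosure ℚ),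
      A.LiesOverPrime ℓ → RedTorsionInjective N ℓ A) :
    TorsionESRelation N p := by
  refine torsionESRelation_of_localESData N p (Cong.heckeGaloisCommute N) ?_
  intro ℓ hℓ hℓNp A hA
  have hℓN : ¬ ℓ ∣ N := fun h => hℓNp (Dvd.dvd.mul_right h p)
  exact localESData_of_red N p ℓ hℓ hℓNp A hA (hR2 ℓ hℓ hℓN A hA) (hR1 ℓ hℓ hℓN A hA)

end Fermat.Agent.ESJ
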