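import Mathlib
import Fermat.Agent.ESJ.Interfaces
import Fermat.Agent.ESJ.TorsionAssembly

/-!
# ESJ — changing the level: `LocalESData` at level `N` from level `M`

At the primes `ℓ ∈ {2, 3}` the curve `X₀(N)` has no base function with tame good reduction
(`0 ≡ 1728 mod ℓ`), and the reduction layer works at the auxiliary level `M = N · aux`
(`aux = 2` for `ℓ = 3`, `aux = 3` for `ℓ = 2`; base function: a Hauptmodul of `X₀(aux)`).
The interface predicate `LocalESData N p ℓ hℓ A` is ABSTRACT in the target of the reduction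
map, so nothing has to be descended from `M` to `N` (no place reduction at level `N`):
compose the reduction map of level `M` with the pull-back of divisor classes
`π : J₀(N) → J₀(M)`.

* `LevelPullback N M d` : an additive map `π : JZero N → JZero M` that commutes with the Galois
  action and with the Hecke operators `T_ℓ`, `ℓ ∤ M`, and whose kernel is killed by `d`
  (in the application `d = [F_M : F_N] = aux + 1`, a power of `ℓ`).
* `localESData_of_levelPullback` : `LocalESData M p ℓ` ⇒ `LocalESData N p ℓ` when `p ∤ d`.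
* `localESData_of_red_of_levelPullback` : the same, with the level-`M` data produced from the
  two outputs R1, R2 of the reduction layer at level `M`.
-/

set_option autoImplicit false

namespace Fermat.Agent.ESJ

open ModularCurve AlgebraicCurve

/-- **LEVEL-PULLBACK**: an additive map `π : J₀(N) → J₀(M)` (pull-back of divisor classes
along `F_N ⊆ F_M` for `N ∣ M`) which is Galois-equivariant, commutes with the Hecke
operators at the primes not dividing `M`, and has kernel killed by `d`. -/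
def LevelPullback (N M : ℕ) [NeZero N] [NeZero M] (d : ℕ) : Prop :=
  ∃ π : JZero N →+ JZero M,
    (∀ (σ : GQ) (x : JZero N), π (σ • x) = σ • π x) ∧
    (∀ ℓ : Nat.Primes, ¬ (ℓ : ℕ) ∣ M → ∀ x : JZero N,
      π (heckeOperatorBar N ℓ x) = heckeOperatorBar M ℓ (π x)) ∧
    (∀ x : JZero N, π x = 0 → d • x = 0)

/-- The level-`M` local Eichler–Shimura data pull back to level `N`. -/
theorem localESData_of_levelPullback (N M p d : ℕ) [NeZero N] [NeZero M] (ℓ : ℕ)
    (hℓ : ℓ.Prime) (hℓM : ¬ ℓ ∣ M) (hd : Nat.Coprime d p)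
    (A : ValuationSubring (AlgebraicClosure ℚ))
    (hπ : LevelPullback N M d) (h : LocalESData M p ℓ hℓ A) :
    LocalESData N p ℓ hℓ A := by
  obtain ⟨π, hπG, hπT, hπker⟩ := hπ
  obtain ⟨X, instX, red, Φ, hI, hF, hinj, hES⟩ := h
  refine ⟨X, instX, red.comp π, Φ, ?_, ?_, ?_, ?_⟩
  · intro σ hσ x
    rw [AddMonoidHom.comp_apply, AddMonoidHom.comp_apply, hπG, hI σ hσ]
  · intro σ hσ x
    rw [AddMonoidHom.comp_apply, AddMonoidHom.comp_apply, hπG, hF σ hσ]
  · rintro x ⟨n, hn⟩ hx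
    rw [AddMonoidHom.comp_apply] at hx
    have h1 : π x = 0 := hinj (π x) ⟨n, by rw [← map_nsmul, hn, map_zero]⟩ hx
    have h2 : d • x = 0 := hπker x h1
    have hcop : Nat.Coprime d (p ^ n) := Nat.Coprime.pow_right n hd
    have h3 : (Nat.gcd d (p ^ n)) • x = 0 := by
      have hz : ((Nat.gcd d (p ^ n) : ℕ) : ℤ) • x = 0 := by
        have e1 : ((d : ℤ) * d.gcdA (p ^ n)) • x = 0 := by
          rw [mul_comm, mul_zsmul, natCast_zsmul, h2, zsmul_zero]
        have e2 : (((p ^ n : ℕ) : ℤ) * d.gcdB (p ^ n)) • x = 0 := by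
          rw [mul_comm, mul_zsmul, natCast_zsmul, hn, zsmul_zero]
        rw [Nat.gcd_eq_gcd_ab d (p ^ n), add_zsmul, e1, e2, add_zero]
      rwa [natCast_zsmul] at hz
    rwa [hcop, one_smul] at h3
  · intro x
    rw [AddMonoidHom.comp_apply, AddMonoidHom.comp_apply, hπT ⟨ℓ, hℓ⟩ hℓM, hES]

/-- `LocalESData` at level `N` from R1 + R2 at an auxiliary level `M` and a level pull-back
`J₀(N) → J₀(M)` with kernel killed by `d`, `p ∤ d`. -/
theorem localESData_of_red_of_levelPullback (N M p d : ℕ) [NeZero N] [NeZero M] (ℓ : ℕ)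
    (hℓ : ℓ.Prime) (hℓM : ¬ ℓ ∣ M) (hℓp : ¬ ℓ ∣ p) (hd : Nat.Coprime d p)
    (A : ValuationSubring (AlgebraicClosure ℚ)) (hA : A.LiesOverPrime ℓ)
    (hπ : LevelPullback N M d)
    (hR2 : ReductionInputsModL A M) (hR1 : RedTorsionInjective M ℓ A) :
    LocalESData N p ℓ hℓ A :=
  localESData_of_levelPullback N M p d ℓ hℓ hℓM hd A hπ
    (localESData_of_red M p ℓ hℓ
      (fun h => (hℓ.dvd_mul.mp h).elim hℓM hℓp) A hA hR2 hR1)

/-- The trivial level pull-back `N = M`. -/
theorem levelPullback_refl (N : ℕ) [NeZero N] : LevelPullback N N 1 :=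
  ⟨AddMonoidHom.id _, fun _ _ => rfl, fun _ _ _ => rfl, fun x hx => by
    rw [one_smul]; exact hx⟩

/-- **LEVEL-PULLBACK at one prime** `ℓ`: as `LevelPullback`, but the Hecke compatibility is
asked for the single operator `T_ℓ` only (this is all `LocalESData` at `ℓ` needs). -/
def LevelPullbackAt (N M : ℕ) [NeZero N] [NeZero M] (d : ℕ) (ℓ : Nat.Primes) : Prop :=
  ∃ π : JZero N →+ JZero M,
    (∀ (σ : GQ) (x : JZero N), π (σ • x) = σ • π x) ∧
    (∀ x : JZero N, π (heckeOperatorBar N ℓ x) = heckeOperatorBar M ℓ (π x)) ∧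
    (∀ x : JZero N, π x = 0 → d • x = 0)

theorem LevelPullback.at {N M : ℕ} [NeZero N] [NeZero M] {d : ℕ} (h : LevelPullback N M d)
    (ℓ : Nat.Primes) (hℓM : ¬ (ℓ : ℕ) ∣ M) : LevelPullbackAt N M d ℓ := by
  obtain ⟨π, hG, hT, hker⟩ := h
  exact ⟨π, hG, hT ℓ hℓM, hker⟩

/-- The level-`M` local Eichler–Shimura data pull back to level `N` (one-prime form). -/
theorem localESData_of_levelPullbackAt (N M p d : ℕ) [NeZero N] [NeZero M] (ℓ : ℕ)
    (hℓ : ℓ.Prime) (hd : Nat.Coprime d p)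
    (A : ValuationSubring (AlgebraicClosure ℚ))
    (hπ : LevelPullbackAt N M d ⟨ℓ, hℓ⟩) (h : LocalESData M p ℓ hℓ A) :
    LocalESData N p ℓ hℓ A := by
  obtain ⟨π, hπG, hπT, hπker⟩ := hπ
  obtain ⟨X, instX, red, Φ, hI, hF, hinj, hES⟩ := h
  refine ⟨X, instX, red.comp π, Φ, ?_, ?_, ?_, ?_⟩
  · intro σ hσ x
    rw [AddMonoidHom.comp_apply, AddMonoidHom.comp_apply, hπG, hI σ hσ]
  · intro σ hσ x
    rw [AddMonoidHom.comp_apply, AddMonoidHom.comp_apply, hπG, hF σ hσ]
  · rintro x ⟨n, hn⟩ hx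
    rw [AddMonoidHom.comp_apply] at hx
    have h1 : π x = 0 := hinj (π x) ⟨n, by rw [← map_nsmul, hn, map_zero]⟩ hx
    have h2 : d • x = 0 := hπker x h1
    have hcop : Nat.Coprime d (p ^ n) := Nat.Coprime.pow_right n hd
    have h3 : (Nat.gcd d (p ^ n)) • x = 0 := by
      have hz : ((Nat.gcd d (p ^ n) : ℕ) : ℤ) • x = 0 := by
        have e1 : ((d : ℤ) * d.gcdA (p ^ n)) • x = 0 := by
          rw [mul_comm, mul_zsmul, natCast_zsmul, h2, zsmul_zero]
        have e2 : (((p ^ n : ℕ) : ℤ) * d.gcdB (p ^ n)) • x = 0 := by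
          rw [mul_comm, mul_zsmul, natCast_zsmul, hn, zsmul_zero]
        rw [Nat.gcd_eq_gcd_ab d (p ^ n), add_zsmul, e1, e2, add_zero]
      rwa [natCast_zsmul] at hz
    rwa [hcop, one_smul] at h3
  · intro x
    rw [AddMonoidHom.comp_apply, AddMonoidHom.comp_apply, hπT, hES]

/-- `LocalESData` at level `N` from R1 + R2 at an auxiliary level `M` and a level pull-back
at the prime `ℓ` with kernel killed by `d`, `p ∤ d`. -/
theorem localESData_of_red_of_levelPullbackAt (N M p d : ℕ) [NeZero N] [NeZero M] (ℓ : ℕ)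
    (hℓ : ℓ.Prime) (hℓM : ¬ ℓ ∣ M) (hℓp : ¬ ℓ ∣ p) (hd : Nat.Coprime d p)
    (A : ValuationSubring (AlgebraicClosure ℚ)) (hA : A.LiesOverPrime ℓ)
    (hπ : LevelPullbackAt N M d ⟨ℓ, hℓ⟩)
    (hR2 : ReductionInputsModL A M) (hR1 : RedTorsionInjective M ℓ A) :
    LocalESData N p ℓ hℓ A :=
  localESData_of_levelPullbackAt N M p d ℓ hℓ hd A hπ
    (localESData_of_red M p ℓ hℓ
      (fun h => (hℓ.dvd_mul.mp h).elim hℓM hℓp) A hA hR2 hR1)

end Fermat.Agent.ESJ
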