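import Fermat.Agent.S28.TowerDefs
import Fermat.Agent.S28.ModEq.Conj

/-!
# ESJ: the Kronecker congruence

For a prime `p`, the modular polynomial `Φ_p(X, Y)` (any `TD.ModEq p`) satisfies, over every field
`K` of characteristic `p`,

`Φ_p(X, Y) = (X ^ p - Y) * (X - Y ^ p)`  in `K[Y][X]`.

Main statements:

* `Jd_pow_char`    : `J(q^p) = J(q)^p` over a commutative ring of characteristic `p`;
* `kronecker`      : the Kronecker congruence, in `K[Y][X]` (outer variable `X`, inner variable `Y`);
* `kronecker_zmod` : the same over `ZMod p`.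
-/

set_option autoImplicit false

noncomputable section

namespace Fermat.Agent.ESJ.Kronecker

open Polynomial ModularCurve Fermat.Agent.S28

/-- `qExpand` of a power series is `PowerSeries.expand`. -/
theorem qExpand_ofPowerSeries {A : Type*} [CommRing A] (p : ℕ) [NeZero p] (u : PowerSeries A) :
    qExpand A p (HahnSeries.ofPowerSeries ℤ A u) =
      HahnSeries.ofPowerSeries ℤ A (PowerSeries.expand p (NeZero.ne p) u) := by
  have hp0 : (0 : ℤ) < (p : ℤ) := by exact_mod_cast Nat.pos_of_ne_zero (NeZero.ne p)
  ext k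
  by_cases hk : (p : ℤ) ∣ k
  · obtain ⟨m, rfl⟩ := hk
    rw [qExpand_coeff_mul]
    rcases le_or_gt 0 m with hm | hm
    · lift m to ℕ using hm
      rw [HahnSeries.ofPowerSeries_apply_coeff, ← Nat.cast_mul,
        HahnSeries.ofPowerSeries_apply_coeff, PowerSeries.coeff_expand_mul]
    · rw [ofPowerSeries_coeff_of_neg _ hm,
        ofPowerSeries_coeff_of_neg _ (mul_neg_of_pos_of_neg hp0 hm)]
  · rw [qExpand_coeff_of_not_dvd _ _ hk]
    rcases le_or_gt 0 k with hk0 | hk0
    · lift k to ℕ using hk0
      rw [HahnSeries.ofPowerSeries_apply_coeff, PowerSeries.coeff_expand_of_not_dvd]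
      exact fun h => hk (by exact_mod_cast h)
    · rw [ofPowerSeries_coeff_of_neg _ hk0]

/-- In characteristic `p`, the `p`-th power of a power series with integer coefficients is its
`p`-expansion. -/
theorem map_intCast_pow_char {A : Type*} [CommRing A] (p : ℕ) [Fact p.Prime] [CharP A p]
    (u : PowerSeries ℤ) :
    (u.map (Int.castRingHom A)) ^ p =
      PowerSeries.expand p (Fact.out : p.Prime).ne_zero (u.map (Int.castRingHom A)) := by
  have key : (u.map (Int.castRingHom A)) ^ p =
      PowerSeries.map (frobenius A p)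
        (PowerSeries.expand p (Fact.out : p.Prime).ne_zero (u.map (Int.castRingHom A))) :=
    (MvPowerSeries.map_frobenius_expand (σ := Unit) (R := A) p
      (Fact.out : p.Prime).ne_zero (f := (u.map (Int.castRingHom A) : PowerSeries A))).symm
  rw [key, ← PowerSeries.map_expand p (Fact.out : p.Prime).ne_zero (Int.castRingHom A) u]
  ext n
  rw [PowerSeries.coeff_map, PowerSeries.coeff_map]
  simp

/-- `J(q^p) = J(q)^p` in characteristic `p`. -/
theorem Jd_pow_char (A : Type*) [CommRing A] (p : ℕ) [Fact p.Prime] [CharP A p] :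
    TD.Jd A p = TD.Jd A 1 ^ p := by
  have : NeZero p := ⟨(Fact.out : p.Prime).ne_zero⟩
  rw [TD.Jd_one, TD.Jd_eq, jqModC_pow, map_intCast_pow_char, jqModC, map_mul, qExpand_single,
    qExpand_ofPowerSeries, mul_neg, mul_one]

variable {K : Type*} [Field K]

/-- Evaluation of polynomials over `K` at `J(q)`. -/
def evJ (K : Type*) [Field K] : Polynomial K →+* LaurentSeries K :=
  Polynomial.eval₂RingHom (HahnSeries.C : K →+* LaurentSeries K) (TD.Jd K 1)

theorem evJ_X : evJ K (X : Polynomial K) = TD.Jd K 1 := by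
  simp [evJ]

theorem evJ_injective : Function.Injective (evJ K) := by
  have h := ModEq.evalAt_injective (A := K) (R := K) (d := 1) one_pos
    (J := TD.Jd K 1) (by rw [TD.Jd_one]; exact ModEq.isLead_jqModC K) (RingHom.id K)
    Function.injective_id
  intro a b hab
  apply h
  simpa [ModEq.evalAt, evJ] using hab

/-- `Φ(x, y)` through the reduction of `Φ` to `K[Y][X]`. -/
theorem eval_polyAt_eq (Φ : Polynomial (Polynomial ℤ)) (x y : LaurentSeries K) :
    (TD.polyAt Φ y).eval x =
      (Φ.map (Polynomial.mapRingHom (Int.castRingHom K))).eval₂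
        (Polynomial.eval₂RingHom (HahnSeries.C : K →+* LaurentSeries K) y) x := by
  unfold TD.polyAt
  rw [Polynomial.eval_map, Polynomial.eval₂_map]
  congr 1
  refine Polynomial.ringHom_ext (fun a => ?_) ?_
  · simp
  · simp

/-- The substitution `Y ↦ Y ^ p` on `K[Y]`. -/
def subPow (K : Type*) [Field K] (p : ℕ) : Polynomial K →+* Polynomial K :=
  Polynomial.eval₂RingHom (Polynomial.C : K →+* Polynomial K) ((X : Polynomial K) ^ p)

theorem evJ_comp_subPow (p : ℕ) :
    (evJ K).comp (subPow K p) =
      Polynomial.eval₂RingHom (HahnSeries.C : K →+* LaurentSeries K) (TD.Jd K 1 ^ p) := by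
  refine Polynomial.ringHom_ext (fun a => ?_) ?_
  · simp [evJ, subPow]
  · simp [evJ, subPow]

theorem eval_swap_eq (p : ℕ) (P : Polynomial (Polynomial K)) :
    (Polynomial.Bivariate.swap P).eval ((X : Polynomial K) ^ p) =
      (P.map (subPow K p)).eval (X : Polynomial K) := by
  have h : ((Polynomial.evalRingHom ((X : Polynomial K) ^ p)).comp
      (Polynomial.Bivariate.swap (R := K)).toAlgHom.toRingHom) =
      (Polynomial.evalRingHom (X : Polynomial K)).comp (Polynomial.mapRingHom (subPow K p)) := by
    refine Polynomial.ringHom_ext (fun a => ?_) ?_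
    · simp only [RingHom.comp_apply, Polynomial.coe_evalRingHom, Polynomial.coe_mapRingHom,
        Polynomial.map_C, Polynomial.eval_C]
      change (Polynomial.Bivariate.swap (C a)).eval _ = _
      rw [Polynomial.Bivariate.swap_C, Polynomial.eval_map]
      rfl
    · simp only [RingHom.comp_apply, Polynomial.coe_evalRingHom, Polynomial.coe_mapRingHom,
        Polynomial.map_X, Polynomial.eval_X]
      change (Polynomial.Bivariate.swap (X : Polynomial (Polynomial K))).eval _ = _
      rw [Polynomial.Bivariate.swap_Y, Polynomial.eval_C]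
  exact congrArg (fun f => f P) h

/-- **Kronecker congruence.** Over a field of characteristic `p`, the modular polynomial of level
`p` is `(X ^ p - Y) * (X - Y ^ p)` (outer variable `X`, inner variable `Y`). -/
theorem kronecker {p : ℕ} [Fact p.Prime] (D : TD.ModEq p) (K : Type*) [Field K] [CharP K p] :
    D.Φ.map (Polynomial.mapRingHom (Int.castRingHom K)) =
      ((X : Polynomial (Polynomial K)) ^ p - C X) * (X - C (X ^ p)) := by
  have hp : p.Prime := Fact.out
  set Φ' : Polynomial (Polynomial K) :=
    D.Φ.map (Polynomial.mapRingHom (Int.castRingHom K)) with hΦ'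
  have hmonic : Φ'.Monic := D.monic.map _
  have hdeg : Φ'.natDegree = p + 1 := by rw [hΦ', D.monic.natDegree_map, D.natDegree_eq]
  -- the root `X = Y ^ p`
  have hA : Φ'.eval ((X : Polynomial K) ^ p) = 0 := by
    apply evJ_injective
    have h := D.rel₂' hp.ne_zero K 1 one_ne_zero
    rw [one_mul, Jd_pow_char K p, eval_polyAt_eq] at h
    rw [map_zero, ← h]
    have h2 : (TD.Jd K 1) ^ p = evJ K ((X : Polynomial K) ^ p) := by rw [map_pow, evJ_X]
    rw [h2]
    exact (Polynomial.eval₂_at_apply (evJ K) _).symm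
  -- the relation `Φ(Y, Y ^ p) = 0`
  have hB : (Polynomial.Bivariate.swap Φ').eval ((X : Polynomial K) ^ p) = 0 := by
    rw [eval_swap_eq]
    apply evJ_injective
    have h := D.rel₁' hp.ne_zero K 1 one_ne_zero
    rw [one_mul, Jd_pow_char K p, eval_polyAt_eq, ← evJ_comp_subPow] at h
    rw [map_zero, ← h, ← Polynomial.eval₂_map]
    conv_rhs => rw [← evJ_X]
    exact (Polynomial.eval₂_at_apply (evJ K) _).symm
  have h1 : (X - C ((X : Polynomial K) ^ p)) ∣ Φ' := Polynomial.dvd_iff_isRoot.mpr hA
  have h2 : ((X : Polynomial (Polynomial K)) ^ p - C X) ∣ Φ' := by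
    have h := Polynomial.dvd_iff_isRoot.mpr hB
    have h' := map_dvd (Polynomial.Bivariate.swap (R := K)) h
    rw [Polynomial.Bivariate.swap_swap_apply, map_sub, Polynomial.Bivariate.swap_Y,
      Polynomial.Bivariate.swap_C, Polynomial.map_pow, Polynomial.map_X] at h'
    have h3 : (X : Polynomial (Polynomial K)) ^ p - C X = -(C X - X ^ p) := by ring
    rw [h3]
    exact neg_dvd.mpr h'
  obtain ⟨Q, hQ⟩ := h2
  have h3 : (X - C ((X : Polynomial K) ^ p)) ∣ Q := by
    have hprime : Prime (X - C ((X : Polynomial K) ^ p)) := Polynomial.prime_X_sub_C _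
    rw [hQ] at h1
    rcases hprime.dvd_or_dvd h1 with h | h
    · exfalso
      have h4 := Polynomial.dvd_iff_isRoot.mp h
      rw [Polynomial.IsRoot, Polynomial.eval_sub, Polynomial.eval_pow, Polynomial.eval_X,
        Polynomial.eval_C] at h4
      have h5 := congrArg Polynomial.natDegree (sub_eq_zero.mp h4)
      rw [← pow_mul, Polynomial.natDegree_X_pow, Polynomial.natDegree_X] at h5
      have := hp.two_le
      nlinarith
    · exact h
  obtain ⟨R, hR⟩ := h3
  have hG : ((X : Polynomial (Polynomial K)) ^ p - C X) * (X - C (X ^ p)) ∣ Φ' :=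
    ⟨R, by rw [hQ, hR]; ring⟩
  have hGm : (((X : Polynomial (Polynomial K)) ^ p - C X) * (X - C (X ^ p))).Monic :=
    (Polynomial.monic_X_pow_sub_C _ hp.ne_zero).mul (Polynomial.monic_X_sub_C _)
  have hGd : (((X : Polynomial (Polynomial K)) ^ p - C X) * (X - C (X ^ p))).natDegree = p + 1 := by
    rw [Polynomial.Monic.natDegree_mul (Polynomial.monic_X_pow_sub_C _ hp.ne_zero)
      (Polynomial.monic_X_sub_C _), Polynomial.natDegree_X_pow_sub_C,
      Polynomial.natDegree_X_sub_C]
  exact Polynomial.eq_of_monic_of_dvd_of_natDegree_le hGm hmonic hG (by rw [hGd, hdeg])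

/-- The Kronecker congruence over `ZMod p`. -/
theorem kronecker_zmod {p : ℕ} [Fact p.Prime] (D : TD.ModEq p) :
    D.Φ.map (Polynomial.mapRingHom (Int.castRingHom (ZMod p))) =
      ((X : Polynomial (Polynomial (ZMod p))) ^ p - C X) * (X - C (X ^ p)) :=
  kronecker D (ZMod p)

end Fermat.Agent.ESJ.Kronecker
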