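/-
ESJ — final wiring (owner: helper55).

The four statements S29, S30, S31, S42 of the Eichler–Shimura trunk as consequences of EXACTLY
two geometric predicates:

* `KummerCmpAll`  : `Rep.KummerCmp N p` for all primes `p` and levels `N ≠ 0`   (JAC-H);
* `TorsionESAll`  : `TorsionESRelation N p` for all primes `p` and levels `N ≠ 0` (RED + CONG).

Everything else (Frobenius density, Hecke–Galois commutation, finiteness of torsion, the
eigen-functional mod `p`, the Tate assembly, the extraction of the representations) is proved.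
The files `Fermat/Agent/S29.lean`, `S30.lean`, `S31.lean`, `S42.lean` are then one line each.
-/
import Mathlib
import Fermat.Agent.ESJ.Interfaces
import Fermat.Agent.ESJ.Rep.ResModule
import Fermat.Agent.ESJ.Rep.S42Wire
import Fermat.Agent.ESJ.Rep.TateKummer
import Fermat.Agent.ESJ.Rep.S30OfA
import Fermat.Agent.ESJ.Rep.FrobDens
import Fermat.Agent.ESJ.Jac.OfKummerCmp
import Fermat.Agent.ESJ.Jac.EigenFunctionalPE
import Fermat.Agent.ESJ.Cong.Comm
import Fermat.Agent.S31.Anemic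
import Fermat.Agent.Frob.Main

set_option autoImplicit false

open Polynomial

namespace Fermat.Agent.ESJ

/-- **Geometric input 1** (JAC-H): the Kummer comparison for all primes and levels. -/
def KummerCmpAll : Prop :=
  ∀ (p N : ℕ) [Fact p.Prime] [NeZero N], Rep.KummerCmp N p

/-- **Geometric input 2** (RED + CONG): unramifiedness and the Eichler–Shimura relation on
`p`-power torsion, for all primes and levels. -/
def TorsionESAll : Prop :=
  ∀ (p N : ℕ) [Fact p.Prime] [NeZero N], TorsionESRelation N p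

/-- Frobenius density in the form of `Interfaces.lean`. -/
theorem frobGenerating_main : FrobGenerating :=
  fun F _ S g => Fermat.Agent.Frob.exists_frobenius_generating F S g

/-- The Tate comparison data from the two geometric inputs. -/
theorem tateCmpAExists_final (hK : KummerCmpAll) (hES : TorsionESAll) : Rep.TateCmpAExists :=
  Rep.TateKummer.tateCmpAExists_of hK hES

/-- **S29** from the two geometric inputs. -/
theorem S29_final (hK : KummerCmpAll) (hES : TorsionESAll)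
    {N : ℕ} {g : CuspForm (CongruenceSubgroup.Gamma0 N) 2} (hg : g.IsNormalizedEigenform)
    {p : ℕ} (hp : p.Prime) {k : Type} [Field k] [CharP k p]
    (φ : integralClosure ℤ ℂ →+* k) :
    ∃ ρ : ResidualGaloisRep k, ρ.IsAttachedTo g φ ∧
      ∀ ℓ : ℕ, ℓ.Prime → ¬ ℓ ∣ N * p → ρ.IsUnramifiedAt ℓ := by
  rcases eq_or_ne N 0 with rfl | hN
  · exact exists_residualGaloisRep_of_ESModule frobGenerating_main g hp k φ
      (residualESModule_zero g p k φ)
  · have : NeZero N := ⟨hN⟩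
    have : Fact p.Prime := ⟨hp⟩
    exact exists_residualGaloisRep_of_ESModule frobGenerating_main g hp k φ
      (residualESModule_of_torsion N p (hES p N)
        (torsionFinite_of_kummerCmp N p hp.ne_zero (hK p N))
        (torsionFiniteLevel_of_kummerCmp N p hp.ne_zero (hK p N))
        (eigenFunctionalModP_of_kummerCmp N p (hK p N)) (Cong.heckeGaloisCommute N) hg k φ)

/-- **S42** from the two geometric inputs. -/
theorem S42_final (hK : KummerCmpAll) (hES : TorsionESAll) (P : FreyPackage) :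
    ∀ M : ℕ, 0 < M → P.EigenformResidualAttachmentAt M :=
  Rep.S42Aux.S42_of_S29 (fun hg _ hp _ _ _ φ => S29_final hK hES hg hp φ) P

/-- **S30** from the two geometric inputs. -/
theorem S30_final (hK : KummerCmpAll) (hES : TorsionESAll) :
    ∀ (p : ℕ) [Fact p.Prime] (N : ℕ) [NeZero N] (S : Finset ℕ)
      (_hpS : p ∈ S) (_hNS : ∀ q : ℕ, q.Prime → q ∣ N → q ∈ S)
      (𝒪' : Type) [CommRing 𝒪'] [IsDomain 𝒪'] [IsDiscreteValuationRing 𝒪']
      [IsAdicComplete (IsLocalRing.maximalIdeal 𝒪') 𝒪'] [Finite (IsLocalRing.ResidueField 𝒪')]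
      [CharZero 𝒪'] (_hp𝒪' : (p : 𝒪') ∈ IsLocalRing.maximalIdeal 𝒪')
      (χ : CuspForm.heckeAlgebra N 2 (↑S : Set ℕ) →+* 𝒪'),
      ∃ (𝒪'' : Type) (_ : CommRing 𝒪'') (_ : IsDomain 𝒪'') (_ : IsDiscreteValuationRing 𝒪'')
        (_ : IsAdicComplete (IsLocalRing.maximalIdeal 𝒪'') 𝒪'')
        (_ : Finite (IsLocalRing.ResidueField 𝒪'')) (_ : CharZero 𝒪'')
        (_ : Algebra 𝒪' 𝒪'') (_ : Module.Finite 𝒪' 𝒪'') (_ : IsLocalHom (algebraMap 𝒪' 𝒪'')),
      Function.Injective (algebraMap 𝒪' 𝒪'') ∧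
      ∃ ρ : GaloisRepAdic 𝒪'',
        (∀ (ℓ : ℕ) (hℓ : ℓ.Prime) (hℓN : ¬ ℓ ∣ N) (hℓS : ℓ ∉ (↑S : Set ℕ)),
          ∀ A : ValuationSubring (AlgebraicClosure ℚ), A.LiesOverPrime ℓ →
            ∀ σ : AlgebraicClosure ℚ ≃ₐ[ℚ] AlgebraicClosure ℚ, A.IsFrobeniusAt σ ℓ →
              LinearMap.charpoly (ρ.ρ σ) =
                X ^ 2 - C (algebraMap 𝒪' 𝒪'' (χ (CuspForm.heckeAlgebra.T hℓ hℓN hℓS))) * X
                  + C ((ℓ : 𝒪''))) ∧
        (∀ q : ℕ, q.Prime → ¬ q ∣ N → q ≠ p → ρ.IsUnramifiedAt q) :=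
  Rep.S30_ofA Rep.frobDensity
    (Rep.tateDatumAExists_of_tateCmpAExists (tateCmpAExists_final hK hES))

/-- **S31** from the two geometric inputs. -/
theorem S31_final (hK : KummerCmpAll) (hES : TorsionESAll) {p : ℕ} {N : ℕ} [NeZero N]
    {S : Finset ℕ}
    {𝒪 : Type} [CommRing 𝒪] [IsDomain 𝒪] [IsDiscreteValuationRing 𝒪]
    [IsAdicComplete (IsLocalRing.maximalIdeal 𝒪) 𝒪]
    {θ : CuspForm.heckeAlgebra N 2 (↑S : Set ℕ) →+* IsLocalRing.ResidueField 𝒪}
    {T : Type} [CommRing T] [IsLocalRing T] [IsNoetherianRing T]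
    [IsAdicComplete (IsLocalRing.maximalIdeal T) T] [Algebra 𝒪 T] [IsLocalHom (algebraMap 𝒪 T)]
    [Module.Finite 𝒪 T] [Module.Free 𝒪 T]
    (hp : p.Prime)
    (hp𝒪 : (p : 𝒪) ∈ IsLocalRing.maximalIdeal 𝒪) (hpS : p ∈ S)
    (hNS : ∀ q : ℕ, q.Prime → q ∣ N → q ∈ S)
    (H : CuspForm.HeckeGaloisRepDatum N (↑S : Set ℕ) 𝒪 θ T)
    (q : ℕ) (hq : q.Prime) (hqS : q ∉ S) :
    H.ρ.IsUnramifiedAt q :=
  Fermat.Agent.S31.S31_ofA (tateCmpAExists_final hK hES) hp hp𝒪 hpS hNS H q hq hqS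

end Fermat.Agent.ESJ
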