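/-
ESJ — top of the trunk (owner: helper99).

With JAC-TORS (`Jac/Main.kummerCmp`) and REP (`Final.lean`) on main, the statements
S29, S30, S31, S42 are consequences of ONE geometric predicate, `K18Good`:

  the Kummer-root statement (K18) of RED-K at the "good" pairs (level `M`, prime `ℓ ∤ M`):
  `5 ≤ ℓ`, or `ℓ = 3 ∧ 2 ∣ M`, or `ℓ = 2 ∧ 3 ∣ M`

(the pairs for which a base function with good reduction exists: `J(q^M)` for `ℓ ≥ 5`, the
Hauptmoduln of level `2`, `3` for `ℓ = 3`, `2`).  The passage to all pairs `(N, ℓ ∤ N)` is the norm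
descent `RedK.k18_of_red23` (helper14), the passage to `TorsionESRelation` is
`RedK.torsionESRelation_of_red23`.

The statement files are then one line each:
`S29.result := fun … => S29_of_k18Good k18Good hg hp φ`, etc.
-/
import Mathlib
import Fermat.Agent.ESJ.Final
import Fermat.Agent.ESJ.Jac.Main
import Fermat.Agent.ESJ.RedK.Descent

set_option autoImplicit false

open Polynomial

namespace Fermat.Agent.ESJ

/-- **(K)** for all primes and levels: the Kummer comparison (JAC-TORS, `Jac/Main.lean`). -/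
theorem kummerCmpAll : KummerCmpAll :=
  fun p N _ _ => kummerCmp N p (Fact.out : p.Prime).pos

/-- **The single remaining geometric input of the trunk**: (K18) at the good pairs
(level `M`, residue characteristic `ℓ ∤ M`) and all prime exponents `p ≠ ℓ`. -/
def K18Good : Prop :=
  ∀ (M : ℕ) [NeZero M] (ℓ : ℕ), ℓ.Prime → ¬ ℓ ∣ M →
    (5 ≤ ℓ ∨ (ℓ = 3 ∧ 2 ∣ M) ∨ (ℓ = 2 ∧ 3 ∣ M)) →
    ∀ A : ValuationSubring (AlgebraicClosure ℚ), A.LiesOverPrime ℓ →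
    ∀ hMk : (M : IsLocalRing.ResidueField A) ≠ 0, ∀ p : ℕ, p.Prime → p ≠ ℓ →
      RedK.K18 M A hMk p

/-- (K18) at all pairs `(N, ℓ ∤ N)` from the good pairs. -/
theorem k18_of_k18Good (h : K18Good) (N : ℕ) [NeZero N] (ℓ : ℕ) (hℓ : ℓ.Prime) (hℓN : ¬ ℓ ∣ N)
    (A : ValuationSubring (AlgebraicClosure ℚ)) (hA : A.LiesOverPrime ℓ)
    (hNk : (N : IsLocalRing.ResidueField A) ≠ 0) (p : ℕ) (hp : p.Prime) (hpℓ : p ≠ ℓ) :
    RedK.K18 N A hNk p :=
  RedK.k18_of_red23 h N ℓ hℓ hℓN A hA hNk p hp hpℓ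

/-- **(E)** for all levels and all `p` from `K18Good`. -/
theorem torsionESRelation_of_k18Good (h : K18Good) (N p : ℕ) [NeZero N] :
    TorsionESRelation N p :=
  RedK.torsionESRelation_of_red23 h N p

/-- **(E)** in the shape of `Final.lean`. -/
theorem torsionESAll_of_k18Good (h : K18Good) : TorsionESAll :=
  fun p N _ _ => torsionESRelation_of_k18Good h N p

/-- **S29** from `K18Good`. -/
theorem S29_of_k18Good (h : K18Good)
    {N : ℕ} {g : CuspForm (CongruenceSubgroup.Gamma0 N) 2} (hg : g.IsNormalizedEigenform)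
    {p : ℕ} (hp : p.Prime) {k : Type} [Field k] [CharP k p]
    (φ : integralClosure ℤ ℂ →+* k) :
    ∃ ρ : ResidualGaloisRep k, ρ.IsAttachedTo g φ ∧
      ∀ ℓ : ℕ, ℓ.Prime → ¬ ℓ ∣ N * p → ρ.IsUnramifiedAt ℓ :=
  S29_final kummerCmpAll (torsionESAll_of_k18Good h) hg hp φ

/-- **S42** from `K18Good`. -/
theorem S42_of_k18Good (h : K18Good) (P : FreyPackage) :
    ∀ M : ℕ, 0 < M → P.EigenformResidualAttachmentAt M :=
  S42_final kummerCmpAll (torsionESAll_of_k18Good h) P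

/-- The Tate comparison data from `K18Good` (input of S30, S31 and of BAD). -/
theorem tateCmpAExists_of_k18Good (h : K18Good) : Rep.TateCmpAExists :=
  tateCmpAExists_final kummerCmpAll (torsionESAll_of_k18Good h)

/-- **S30** from `K18Good`. -/
theorem S30_of_k18Good (h : K18Good) :
    ∀ (p : ℕ) [Fact p.Prime] (N : ℕ) [NeZero N] (S : Finset ℕ)
      (_hpS : p ∈ S) (_hNS : ∀ q : ℕ, q.Prime → q ∣ N → q ∈ S)
      (𝒪' : Type) [CommRing 𝒪'] [IsDomain 𝒪'] [IsDiscreteValuationRing 𝒪']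
      [IsAdicComplete (IsLocalRing.maximalIdeal 𝒪') 𝒪'] [Finite (IsLocalRing.ResidueField 𝒪')]
      [CharZero 𝒪'] (_hp𝒪' : (p : 𝒪') ∈ IsLocalRing.maximalIdeal 𝒪')
      (χ : CuspForm.heckeAlgebra N 2 (↑S : Set ℕ) →+* 𝒪'),
      ∃ (𝒪'' : Type) (_ : CommRing 𝒪'') (_ : IsDomain 𝒪'') (_ : IsDiscreteValuationRing 𝒪'')
        (_ : IsAdicComplete (IsLocalRing.maximalIdeal 𝒪'') 𝒪'')
        (_ : Finite (IsLocalRing.ResidueField 𝒪'')) (_ : CharZero 𝒪'')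
        (_ : Algebra 𝒪' 𝒪'') (_ : Module.Finite 𝒪' 𝒪'') (_ : IsLocalHom (algebraMap 𝒪' 𝒪'')),
      Function.Injective (algebraMap 𝒪' 𝒪'') ∧
      ∃ ρ : GaloisRepAdic 𝒪'',
        (∀ (ℓ : ℕ) (hℓ : ℓ.Prime) (hℓN : ¬ ℓ ∣ N) (hℓS : ℓ ∉ (↑S : Set ℕ)),
          ∀ A : ValuationSubring (AlgebraicClosure ℚ), A.LiesOverPrime ℓ →
            ∀ σ : AlgebraicClosure ℚ ≃ₐ[ℚ] AlgebraicClosure ℚ, A.IsFrobeniusAt σ ℓ →
              LinearMap.charpoly (ρ.ρ σ) =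
                X ^ 2 - C (algebraMap 𝒪' 𝒪'' (χ (CuspForm.heckeAlgebra.T hℓ hℓN hℓS))) * X
                  + C ((ℓ : 𝒪''))) ∧
        (∀ q : ℕ, q.Prime → ¬ q ∣ N → q ≠ p → ρ.IsUnramifiedAt q) :=
  S30_final kummerCmpAll (torsionESAll_of_k18Good h)

/-- **S31** from `K18Good`. -/
theorem S31_of_k18Good (h : K18Good) {p : ℕ} {N : ℕ} [NeZero N]
    {S : Finset ℕ}
    {𝒪 : Type} [CommRing 𝒪] [IsDomain 𝒪] [IsDiscreteValuationRing 𝒪]
    [IsAdicComplete (IsLocalRing.maximalIdeal 𝒪) 𝒪]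
    {θ : CuspForm.heckeAlgebra N 2 (↑S : Set ℕ) →+* IsLocalRing.ResidueField 𝒪}
    {T : Type} [CommRing T] [IsLocalRing T] [IsNoetherianRing T]
    [IsAdicComplete (IsLocalRing.maximalIdeal T) T] [Algebra 𝒪 T] [IsLocalHom (algebraMap 𝒪 T)]
    [Module.Finite 𝒪 T] [Module.Free 𝒪 T]
    (hp : p.Prime)
    (hp𝒪 : (p : 𝒪) ∈ IsLocalRing.maximalIdeal 𝒪) (hpS : p ∈ S)
    (hNS : ∀ q : ℕ, q.Prime → q ∣ N → q ∈ S)
    (H : CuspForm.HeckeGaloisRepDatum N (↑S : Set ℕ) 𝒪 θ T)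
    (q : ℕ) (hq : q.Prime) (hqS : q ∉ S) :
    H.ρ.IsUnramifiedAt q :=
  S31_final kummerCmpAll (torsionESAll_of_k18Good h) hp hp𝒪 hpS hNS H q hq hqS

end Fermat.Agent.ESJ
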