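/-
ESJ (helper41): `K18Good` — the single remaining geometric input of the trunk (`ESJ/Top.lean`) —
is a theorem: (K18) at the good pairs from the DISC lift (`Lib/Red/DiscInst.lean`) at the base
functions `J(q^M)` (`ℓ ≥ 5`), `y₂(q^(M/2))` (`ℓ = 3`, `2 ∣ M`), `t₃(q^(M/3))` (`ℓ = 2`, `3 ∣ M`)
through `ESJ/RedK/GoodOfLift.lean`.
-/
import Mathlib
import Fermat.Agent.ESJ.Top
import Fermat.Agent.ESJ.RedK.GoodFinal

set_option autoImplicit false

namespace Fermat.Agent.ESJ

/-- **(K18) at the good pairs** — unconditional. -/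
theorem k18Good : K18Good := fun M _ ℓ hℓ _ hg A hA hMk p hp hpℓ =>
  RedK.k18_good RedK.chartLift RedK.chartLiftInv M ℓ hℓ hg A hA hMk p hp hpℓ

end Fermat.Agent.ESJ
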