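import Mathlib
import Fermat.Agent.ESJ.Interfaces
import Fermat.Agent.Lib.FrobeniusExists

/-!
# ESJ — S37 from the local Eichler–Shimura data

`specializationExists_of_localESData`: the frozen statement S37 (`SpecializationExists` for
`JZero N`) follows formally from `LocalESData N p ℓ hℓ A` for all primes `ℓ ∤ N p` and all
valuation subrings `A` of `ℚ̄` over `ℓ`.

The specialization target is `J' := JZero N ⧸ K` with
`K := {x | ∀ T : HeckeAlg, red (T • x) = 0}`, so that NO compatibility of `red` with the Hecke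
operators other than the congruence for `T_ℓ` itself is needed.
-/

set_option autoImplicit false

namespace Fermat.Agent.ESJ

open ModularCurve AlgebraicCurve

section General

variable {R M X G : Type*} [CommRing R] [AddCommGroup M] [Module R M] [AddCommGroup X]
  [Group G] [DistribMulAction G M] [SMulCommClass G R M]

/-- The largest `R`-submodule of `M` contained in the kernel of the additive map `red`. -/
def redKer (R : Type*) [CommRing R] {M X : Type*} [AddCommGroup M] [Module R M] [AddCommGroup X]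
    (red : M →+ X) : Submodule R M where
  carrier := {x | ∀ T : R, red (T • x) = 0}
  add_mem' := by
    intro a b ha hb T
    rw [smul_add, map_add, ha T, hb T, add_zero]
  zero_mem' := by
    intro T
    rw [smul_zero, map_zero]
  smul_mem' := by
    intro c x hx T
    rw [smul_smul]
    exact hx (T * c)

theorem mem_redKer (red : M →+ X) (x : M) : x ∈ redKer R red ↔ ∀ T : R, red (T • x) = 0 :=
  Iff.rfl

theorem red_eq_zero_of_mem_redKer (red : M →+ X) {x : M} (hx : x ∈ redKer R red) : red x = 0 := by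
  have := hx 1
  rwa [one_smul] at this

theorem redKer_le_comap (red : M →+ X) (Φ : X →+ X) (σ₀ : G)
    (h : ∀ x : M, red (σ₀ • x) = Φ (red x)) :
    redKer R red ≤ (redKer R red).comap (DistribSMul.toLinearMap R M σ₀) := by
  intro x hx
  rw [Submodule.mem_comap, mem_redKer]
  intro T
  have e : T • (DistribSMul.toLinearMap R M σ₀) x = σ₀ • (T • x) := (smul_comm σ₀ T x).symm
  rw [e, h, hx T, map_zero]

/-- The map induced by `σ₀` on `M ⧸ redKer R red`. -/
def redFrob (red : M →+ X) (Φ : X →+ X) (σ₀ : G) (h : ∀ x : M, red (σ₀ • x) = Φ (red x)) :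
    (M ⧸ redKer R red) →ₗ[R] (M ⧸ redKer R red) :=
  (redKer R red).mapQ (redKer R red) (DistribSMul.toLinearMap R M σ₀) (redKer_le_comap red Φ σ₀ h)

theorem redFrob_mk (red : M →+ X) (Φ : X →+ X) (σ₀ : G) (h : ∀ x : M, red (σ₀ • x) = Φ (red x))
    (x : M) :
    redFrob (R := R) red Φ σ₀ h (Submodule.Quotient.mk x) = Submodule.Quotient.mk (σ₀ • x) :=
  rfl

theorem mk_eq_mk_of_red (red : M →+ X) {x y : M} (h : ∀ T : R, red (T • x) = red (T • y)) :
    (Submodule.Quotient.mk x : M ⧸ redKer R red) = Submodule.Quotient.mk y := by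
  rw [Submodule.Quotient.eq, mem_redKer]
  intro T
  rw [smul_sub, map_sub, h T, sub_self]

/-- The quadratic relation on the quotient. -/
theorem redFrob_quadratic (red : M →+ X) (Φ : X →+ X) (σ₀ : G)
    (h : ∀ x : M, red (σ₀ • x) = Φ (red x)) (t : R) (ℓ : ℕ)
    (h4 : ∀ x : M, Φ (red (t • x)) = Φ (Φ (red x)) + ℓ • red x)
    (y : M ⧸ redKer R red) :
    redFrob (R := R) red Φ σ₀ h (redFrob (R := R) red Φ σ₀ h y)
      - t • redFrob (R := R) red Φ σ₀ h y + ℓ • y = 0 := by
  obtain ⟨x, rfl⟩ := Submodule.Quotient.mk_surjective _ y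
  rw [redFrob_mk, redFrob_mk, ← Submodule.Quotient.mk_smul, ← Submodule.Quotient.mk_sub]
  have e : (ℓ • (Submodule.Quotient.mk x : M ⧸ redKer R red)) = Submodule.Quotient.mk (ℓ • x) := by
    rw [← Submodule.mkQ_apply, ← Submodule.mkQ_apply, map_nsmul]
  rw [e, ← Submodule.Quotient.mk_add, Submodule.Quotient.mk_eq_zero, mem_redKer]
  intro T
  have e1 : T • (σ₀ • σ₀ • x - t • σ₀ • x + ℓ • x) =
      σ₀ • σ₀ • (T • x) - σ₀ • (t • (T • x)) + ℓ • (T • x) := by
    rw [smul_add, smul_sub, smul_comm T ℓ x, ← smul_comm σ₀ T (σ₀ • x), ← smul_comm σ₀ T x,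
      smul_comm T t (σ₀ • x), ← smul_comm σ₀ T x, ← smul_comm σ₀ t (T • x)]
  rw [e1, map_add, map_sub, map_nsmul, h, h, h, h4]
  abel

end General

section

variable (N p : ℕ) [NeZero N]

/-- S37 from `LocalESData`. -/
theorem specializationExists_of_localESData
    (hcomm : HeckeOperatorsCommuteBar N)
    (H : ∀ (ℓ : ℕ) (hℓ : ℓ.Prime), ¬ ℓ ∣ N * p →
      ∀ A : ValuationSubring (AlgebraicClosure ℚ), A.LiesOverPrime ℓ → LocalESData N p ℓ hℓ A) :
    letI := heckeModuleBar N
    ∀ (_ : SMulCommClass (AlgebraicClosure ℚ ≃ₐ[ℚ] AlgebraicClosure ℚ) HeckeAlg (JZero N)),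
      SpecializationExists (K := ℚ) (L := AlgebraicClosure ℚ) N p (JZero N) := by
  letI := heckeModuleBar N
  intro hsmul ℓ hℓ hℓNp A hA
  obtain ⟨X, instX, red, Φ, h1, h2, h3, h4⟩ := H ℓ hℓ hℓNp A hA
  obtain ⟨σ₀, hσ₀⟩ := Fermat.Agent.Lib.FrobeniusExists.exists_isFrobeniusAt_of_liesOverPrime hℓ A hA
  have h4' : ∀ x : JZero N, Φ (red (heckeGen ⟨ℓ, hℓ⟩ • x)) = Φ (Φ (red x)) + ℓ • red x := by
    intro x
    have e4 : heckeGen ⟨ℓ, hℓ⟩ • x = heckeOperatorBar N ⟨ℓ, hℓ⟩ x :=
      heckeModuleBar_heckeGen_smul hcomm ⟨ℓ, hℓ⟩ x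
    rw [e4, h4]
  refine ⟨JZero N ⧸ redKer HeckeAlg red, inferInstance, inferInstance,
    (redKer HeckeAlg red).mkQ.toAddMonoidHom,
    (redFrob (R := HeckeAlg) red Φ σ₀ (h2 σ₀ hσ₀)).toAddMonoidHom, ⟨?_, ?_, ?_, ?_⟩, ?_⟩
  · -- Hecke equivariance
    intro T x
    rfl
  · -- inertia
    intro σ hσ x
    refine mk_eq_mk_of_red (R := HeckeAlg) red fun T => ?_
    rw [← smul_comm σ T x, h1 σ hσ]
  · -- Frobenius
    intro σ hσ x
    refine mk_eq_mk_of_red (R := HeckeAlg) (x := σ • x) (y := σ₀ • x) red fun T => ?_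
    rw [← smul_comm σ T x, ← smul_comm σ₀ T x, h2 σ hσ, h2 σ₀ hσ₀]
  · -- injectivity on p-power torsion
    intro x hx hx0
    have hxK : x ∈ redKer HeckeAlg red := (Submodule.Quotient.mk_eq_zero _).mp hx0
    exact h3 x hx (red_eq_zero_of_mem_redKer red hxK)
  · -- the quadratic relation
    intro y
    exact redFrob_quadratic (R := HeckeAlg) red Φ σ₀ (h2 σ₀ hσ₀) (heckeGen ⟨ℓ, hℓ⟩) ℓ h4' y

end

end Fermat.Agent.ESJ
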