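import Mathlib
import Fermat.Agent.ESJ.S37Assembly
import Fermat.Agent.ESJ.TorsionAssembly
import Fermat.Agent.ESJ.LevelPullback

/-!
# ESJ — S37 from the outputs of the RED layer at auxiliary levels

`specializationExists_of_red_levels`: the conclusion of the frozen statement S37 from, for every
prime `ℓ ∤ N p` and every valuation subring `A` of `ℚ̄` over `ℓ`, SOME level `M` with `ℓ ∤ M`,
a level pull-back `J₀(N) → J₀(M)` at `ℓ` with kernel killed by `d`, `p ∤ d`, and the two outputs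
R1 (`RedTorsionInjective M ℓ A`), R2 (`ReductionInputsModL A M`) of the reduction layer at
level `M`.

`specializationExists_of_red23`: the instance used for S37 —
* level `N` itself when `ℓ ≥ 5`, or `ℓ = 3` and `2 ∣ N`, or `ℓ = 2` and `3 ∣ N`;
* level `N * 2`, `d = 3`, when `ℓ = 3` and `2 ∤ N`;
* level `N * 3`, `d = 4`, when `ℓ = 2` and `3 ∤ N`.
-/

set_option autoImplicit false

namespace Fermat.Agent.ESJ

open ModularCurve AlgebraicCurve

set_option synthInstance.maxHeartbeats 400000 in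
set_option maxHeartbeats 1000000 in
theorem specializationExists_of_red_levels (N p : ℕ) [NeZero N]
    (hcomm : HeckeOperatorsCommuteBar N)
    (h : ∀ (ℓ : ℕ) (hℓ : ℓ.Prime), ¬ ℓ ∣ N * p →
      ∀ A : ValuationSubring (AlgebraicClosure ℚ), A.LiesOverPrime ℓ →
        ∃ (M d : ℕ) (_ : NeZero M), ¬ ℓ ∣ M ∧ Nat.Coprime d p ∧
          LevelPullbackAt N M d ⟨ℓ, hℓ⟩ ∧ ReductionInputsModL A M ∧
          RedTorsionInjective M ℓ A) :
    letI := heckeModuleBar N
    ∀ (_ : SMulCommClass (AlgebraicClosure ℚ ≃ₐ[ℚ] AlgebraicClosure ℚ) HeckeAlg (JZero N)),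
      SpecializationExists (K := ℚ) (L := AlgebraicClosure ℚ) N p (JZero N) :=
  specializationExists_of_localESData N p hcomm fun ℓ hℓ hℓNp A hA => by
    have hℓp : ¬ ℓ ∣ p := fun h' => hℓNp (Dvd.dvd.mul_left h' N)
    obtain ⟨M, d, hM, hℓM, hd, hπ, hR2, hR1⟩ := h ℓ hℓ hℓNp A hA
    exact localESData_of_red_of_levelPullbackAt N M p d ℓ hℓ hℓM hℓp hd A hA hπ hR2 hR1

set_option synthInstance.maxHeartbeats 400000 in
set_option maxHeartbeats 1000000 in
theorem specializationExists_of_red23 (N p : ℕ) [NeZero N]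
    (hcomm : HeckeOperatorsCommuteBar N)
    (hR : ∀ ℓ : ℕ, ℓ.Prime → ¬ ℓ ∣ N → (5 ≤ ℓ ∨ (ℓ = 3 ∧ 2 ∣ N) ∨ (ℓ = 2 ∧ 3 ∣ N)) →
      ∀ A : ValuationSubring (AlgebraicClosure ℚ), A.LiesOverPrime ℓ →
        ReductionInputsModL A N ∧ RedTorsionInjective N ℓ A)
    (hR3 : ¬ 3 ∣ N → ¬ 2 ∣ N → ∀ A : ValuationSubring (AlgebraicClosure ℚ), A.LiesOverPrime 3 →
      ReductionInputsModL A (N * 2) ∧ RedTorsionInjective (N * 2) 3 A)
    (hR2 : ¬ 2 ∣ N → ¬ 3 ∣ N → ∀ A : ValuationSubring (AlgebraicClosure ℚ), A.LiesOverPrime 2 →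
      ReductionInputsModL A (N * 3) ∧ RedTorsionInjective (N * 3) 2 A)
    (hπ3 : ¬ 3 ∣ N → ¬ 2 ∣ N → LevelPullbackAt N (N * 2) 3 ⟨3, Nat.prime_three⟩)
    (hπ2 : ¬ 2 ∣ N → ¬ 3 ∣ N → LevelPullbackAt N (N * 3) 4 ⟨2, Nat.prime_two⟩) :
    letI := heckeModuleBar N
    ∀ (_ : SMulCommClass (AlgebraicClosure ℚ ≃ₐ[ℚ] AlgebraicClosure ℚ) HeckeAlg (JZero N)),
      SpecializationExists (K := ℚ) (L := AlgebraicClosure ℚ) N p (JZero N) :=
  specializationExists_of_red_levels N p hcomm fun ℓ hℓ hℓNp A hA => by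
    have hℓN : ¬ ℓ ∣ N := fun h' => hℓNp (Dvd.dvd.mul_right h' p)
    have hℓp : ¬ ℓ ∣ p := fun h' => hℓNp (Dvd.dvd.mul_left h' N)
    have hpull : LevelPullbackAt N N 1 ⟨ℓ, hℓ⟩ := (levelPullback_refl N).at ⟨ℓ, hℓ⟩ hℓN
    by_cases h5 : 5 ≤ ℓ
    · obtain ⟨h2, h1⟩ := hR ℓ hℓ hℓN (Or.inl h5) A hA
      exact ⟨N, 1, inferInstance, hℓN, Nat.coprime_one_left p, hpull, h2, h1⟩
    · have hℓ23 : ℓ = 2 ∨ ℓ = 3 := by
        have hlt : ℓ < 5 := not_le.mp h5
        have h2le := hℓ.two_le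
        interval_cases ℓ
        · exact Or.inl rfl
        · exact Or.inr rfl
        · exact absurd hℓ (by decide)
      rcases hℓ23 with rfl | rfl
      · -- `ℓ = 2`
        by_cases h3N : 3 ∣ N
        · obtain ⟨h2, h1⟩ := hR 2 hℓ hℓN (Or.inr (Or.inr ⟨rfl, h3N⟩)) A hA
          exact ⟨N, 1, inferInstance, hℓN, Nat.coprime_one_left p, hpull, h2, h1⟩
        · obtain ⟨h2, h1⟩ := hR2 hℓN h3N A hA
          have hp2 : Nat.Coprime 4 p := by
            have h22 : Nat.Coprime 2 p := (Nat.Prime.coprime_iff_not_dvd Nat.prime_two).mpr hℓp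
            exact Nat.Coprime.pow_left 2 h22
          refine ⟨N * 3, 4, inferInstance, ?_, hp2, hπ2 hℓN h3N, h2, h1⟩
          intro hdvd
          rcases (Nat.Prime.dvd_mul Nat.prime_two).mp hdvd with h' | h'
          · exact hℓN h'
          · exact absurd h' (by decide)
      · -- `ℓ = 3`
        by_cases h2N : 2 ∣ N
        · obtain ⟨h2, h1⟩ := hR 3 hℓ hℓN (Or.inr (Or.inl ⟨rfl, h2N⟩)) A hA
          exact ⟨N, 1, inferInstance, hℓN, Nat.coprime_one_left p, hpull, h2, h1⟩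
        · obtain ⟨h2, h1⟩ := hR3 hℓN h2N A hA
          have hp3 : Nat.Coprime 3 p := (Nat.Prime.coprime_iff_not_dvd Nat.prime_three).mpr hℓp
          refine ⟨N * 2, 3, inferInstance, ?_, hp3, hπ3 hℓN h2N, h2, h1⟩
          intro hdvd
          rcases (Nat.Prime.dvd_mul Nat.prime_three).mp hdvd with h' | h'
          · exact hℓN h'
          · exact absurd h' (by decide)

end Fermat.Agent.ESJ
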