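import Mathlib
import Fermat.Agent.ESJ.S37OfRedLevels
import Fermat.Agent.ESJ.Cong.LevelPull
import Fermat.Agent.ESJ.Cong.OfKummerRoot

/-!
# ESJ — S37 from the reduction layer at the levels with a good base function

The reduction layer produces its two outputs

* R2 `ReductionInputsModL A M` (a place reduction `X₀(M)_{ℚ̄} → X₀(M)_{𝔽̄_ℓ}`), and
* R1 `RedTorsionInjective M ℓ A` (injectivity on prime-to-`ℓ` torsion),

at the pairs `(M, ℓ)`, `ℓ ∤ M`, for which `X₀(M)` has a base function with tame good reduction: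
`ℓ ≥ 5` (base `j`), `ℓ = 3` and `2 ∣ M`, `ℓ = 2` and `3 ∣ M` (base: a Hauptmodul of `X₀(aux)`).
The level pull-back `J₀(N) → J₀(N · aux)` (`Cong.levelPullback_mul_prime`) transports the local
Eichler–Shimura data to every level, so these pairs suffice for S37:

* `specializationExists_of_good` : the conclusion of the frozen statement S37 from R1 + R2 at the
  good pairs;
* `specializationExists_of_good_kummer` : the same with R1 replaced by the Kummer-root property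
  (RED-K, `KummerRoot`) at the good pairs.
-/

set_option autoImplicit false

namespace Fermat.Agent.ESJ

open ModularCurve AlgebraicCurve

set_option synthInstance.maxHeartbeats 400000 in
set_option maxHeartbeats 1000000 in
/-- **S37 from R1 + R2 at the good pairs** `(M, ℓ)`: `ℓ ≥ 5`, or `ℓ = 3` and `2 ∣ M`, or `ℓ = 2`
and `3 ∣ M`. -/
theorem specializationExists_of_good
    (hR : ∀ (M : ℕ) [NeZero M] (ℓ : ℕ), ℓ.Prime → ¬ ℓ ∣ M →
      (5 ≤ ℓ ∨ (ℓ = 3 ∧ 2 ∣ M) ∨ (ℓ = 2 ∧ 3 ∣ M)) →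
      ∀ A : ValuationSubring (AlgebraicClosure ℚ), A.LiesOverPrime ℓ →
        ReductionInputsModL A M ∧ RedTorsionInjective M ℓ A)
    (N p : ℕ) [NeZero N] (hcomm : HeckeOperatorsCommuteBar N) :
    letI := heckeModuleBar N
    ∀ (_ : SMulCommClass (AlgebraicClosure ℚ ≃ₐ[ℚ] AlgebraicClosure ℚ) HeckeAlg (JZero N)),
      SpecializationExists (K := ℚ) (L := AlgebraicClosure ℚ) N p (JZero N) := by
  have h32 : ∀ M : ℕ, ¬ 3 ∣ M → ¬ 3 ∣ M * 2 := fun M hM h =>
    ((Nat.Prime.dvd_mul Nat.prime_three).mp h).elim hM (by decide)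
  have h23 : ∀ M : ℕ, ¬ 2 ∣ M → ¬ 2 ∣ M * 3 := fun M hM h =>
    ((Nat.Prime.dvd_mul Nat.prime_two).mp h).elim hM (by decide)
  refine specializationExists_of_red23 N p hcomm (fun ℓ hℓ hℓN hgood A hA => hR N ℓ hℓ hℓN hgood A hA)
    (fun h3 _ A hA => hR (N * 2) 3 Nat.prime_three (h32 N h3)
      (Or.inr (Or.inl ⟨rfl, dvd_mul_left 2 N⟩)) A hA)
    (fun h2 _ A hA => hR (N * 3) 2 Nat.prime_two (h23 N h2)
      (Or.inr (Or.inr ⟨rfl, dvd_mul_left 3 N⟩)) A hA)
    (fun h3 h2 => (Cong.levelPullback_mul_prime N 2 Nat.prime_two h2).at ⟨3, Nat.prime_three⟩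
      (h32 N h3))
    (fun h2 h3 => (Cong.levelPullback_mul_prime N 3 Nat.prime_three h3).at ⟨2, Nat.prime_two⟩
      (h23 N h2))

set_option synthInstance.maxHeartbeats 400000 in
set_option maxHeartbeats 1000000 in
/-- **S37 from R2 + the Kummer-root property at the good pairs**: R1 at every level follows from
`KummerRoot` at the good pairs (`Cong.TorsionESK.redTorsionInjective_of_good`). -/
theorem specializationExists_of_good_kummer
    (hK : ∀ (M : ℕ) [NeZero M] (ℓ : ℕ), ℓ.Prime → ¬ ℓ ∣ M →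
      (5 ≤ ℓ ∨ (ℓ = 3 ∧ 2 ∣ M) ∨ (ℓ = 2 ∧ 3 ∣ M)) →
      ∀ A : ValuationSubring (AlgebraicClosure ℚ), A.LiesOverPrime ℓ →
      ∀ m : ℕ, m ≠ 0 → ¬ ℓ ∣ m → Cong.TorsionESK.KummerRoot M A m)
    (hR2 : ∀ (M : ℕ) [NeZero M] (ℓ : ℕ), ℓ.Prime → ¬ ℓ ∣ M →
      (5 ≤ ℓ ∨ (ℓ = 3 ∧ 2 ∣ M) ∨ (ℓ = 2 ∧ 3 ∣ M)) →
      ∀ A : ValuationSubring (AlgebraicClosure ℚ), A.LiesOverPrime ℓ →
        ReductionInputsModL A M)
    (N p : ℕ) [NeZero N] (hcomm : HeckeOperatorsCommuteBar N) :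
    letI := heckeModuleBar N
    ∀ (_ : SMulCommClass (AlgebraicClosure ℚ ≃ₐ[ℚ] AlgebraicClosure ℚ) HeckeAlg (JZero N)),
      SpecializationExists (K := ℚ) (L := AlgebraicClosure ℚ) N p (JZero N) :=
  specializationExists_of_good (fun M _ ℓ hℓ hℓM hgood A hA =>
    ⟨hR2 M ℓ hℓ hℓM hgood A hA,
      Cong.TorsionESK.redTorsionInjective_of_good hK M ℓ hℓ hℓM A hA⟩) N p hcomm

end Fermat.Agent.ESJ
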