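import Mathlib
import Fermat.Agent.ESJ.S37Assembly
import Fermat.Agent.ESJ.TorsionAssembly

/-!
# ESJ — S37 from the two outputs of the RED layer

`specializationExists_of_red`: the conclusion of the frozen statement S37
(`SpecializationExists` for `JZero N`) from

* **R2** existence of a place reduction `ReductionInputsModL A N`,
* **R1** `RedTorsionInjective N ℓ A` (S18 for an arbitrary place reduction),

for every prime `ℓ ∤ N` and every valuation subring `A` of `ℚ̄` over `ℓ`.
Everything else (ES-CONG) is a theorem on main.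
-/

set_option autoImplicit false

namespace Fermat.Agent.ESJ

open ModularCurve AlgebraicCurve

set_option synthInstance.maxHeartbeats 400000 in
set_option maxHeartbeats 1000000 in
theorem specializationExists_of_red (N p : ℕ) [NeZero N]
    (hcomm : HeckeOperatorsCommuteBar N)
    (hR2 : ∀ ℓ : ℕ, ℓ.Prime → ¬ ℓ ∣ N → ∀ A : ValuationSubring (AlgebraicClosure ℚ),
      A.LiesOverPrime ℓ → ReductionInputsModL A N)
    (hR1 : ∀ ℓ : ℕ, ℓ.Prime → ¬ ℓ ∣ N → ∀ A : ValuationSubring (AlgebraicClosure ℚ),
      A.LiesOverPrime ℓ → RedTorsionInjective N ℓ A) :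
    letI := heckeModuleBar N
    ∀ (_ : SMulCommClass (AlgebraicClosure ℚ ≃ₐ[ℚ] AlgebraicClosure ℚ) HeckeAlg (JZero N)),
      SpecializationExists (K := ℚ) (L := AlgebraicClosure ℚ) N p (JZero N) :=
  specializationExists_of_localESData N p hcomm fun ℓ hℓ hℓNp A hA =>
    have hℓN : ¬ ℓ ∣ N := fun h => hℓNp (Dvd.dvd.mul_right h p)
    localESData_of_red N p ℓ hℓ hℓNp A hA (hR2 ℓ hℓ hℓN A hA) (hR1 ℓ hℓ hℓN A hA)

end Fermat.Agent.ESJ
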