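import Mathlib
import Fermat.Agent.ESJ.Interfaces
import Fermat.Agent.ESJ.Rep.ResModule
import Fermat.Agent.ESJ.Rep.S42Wire
import Fermat.Agent.ESJ.Rep.TateKummer
import Fermat.Agent.ESJ.Jac.EigenFunctionalPE
import Fermat.Agent.ESJ.Jac.FiniteLevel
import Fermat.Agent.ESJ.Cong.Comm
import Fermat.Agent.S31.Anemic
import Fermat.Agent.Frob.Main

/-!
# ESJ — the trunk, end to end

Integration file of the chief architect: the frozen statements S29, S42, S31 derived from
the TWO geometric families of theorems that are still being proved,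

* `(K)`  `Rep.KummerCmp N p`        for all levels `N ≠ 0` and primes `p`   (JAC-TORS),
* `(E)`  `TorsionESRelation N p`    for all levels `N ≠ 0` and primes `p`   (RED + ES-CONG),

using only theorems on main.  (S30 is `Rep.S30_ofA` applied to
`Rep.TateKummer.tateCmpAExists_of`; S37 is `specializationExists_of_red`; S18 is
`eq_zero_of_reductionModL_eq_zero_of_redTorsionInjective`.)

The statement files `S29.lean`, `S42.lean`, `S31.lean` are then one line each:
`Fermat.Agent.ESJ.S29_of_trunk kummerCmp torsionESRelation hg hp φ` etc.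
-/

set_option autoImplicit false

namespace Fermat.Agent.ESJ

open ModularCurve AlgebraicCurve

/-- FROB in the interface form. -/
theorem frobGenerating_trunk : FrobGenerating :=
  fun F _ S g => Fermat.Agent.Frob.exists_frobenius_generating F S g

/-- `J[a * b]` is finite if `J[a]` and `J[b]` are. -/
theorem torsionFinite_mul (N a b : ℕ) (ha : TorsionFinite N a) (hb : TorsionFinite N b) :
    TorsionFinite N (a * b) := by
  classical
  unfold TorsionFinite at *
  set Ta : Set (JZero N) :=
    (Pic0.torsion (AlgebraicClosure ℚ) (modularFunctionFieldBar N) a : Set (JZero N)) with hTa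
  set Tb : Set (JZero N) :=
    (Pic0.torsion (AlgebraicClosure ℚ) (modularFunctionFieldBar N) b : Set (JZero N)) with hTb
  have hmemA : ∀ x : JZero N, x ∈ Ta ↔ a • x = 0 := fun x => Iff.rfl
  have hmemB : ∀ x : JZero N, x ∈ Tb ↔ b • x = 0 := fun x => Iff.rfl
  -- every `x` with `(a*b) x = 0` lies in a fibre of `x ↦ a • x` over `J[b]`
  have hsub : (Pic0.torsion (AlgebraicClosure ℚ) (modularFunctionFieldBar N) (a * b) :
      Set (JZero N)) ⊆ ⋃ y ∈ Tb, {x : JZero N | a • x = y} := by
    intro x hx
    have hx' : (a * b) • x = 0 := hx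
    refine Set.mem_biUnion (x := a • x) ?_ rfl
    rw [hmemB, ← mul_nsmul', mul_comm]
    exact hx'
  refine Set.Finite.subset (Set.Finite.biUnion hb fun y _ => ?_) hsub
  rcases Set.eq_empty_or_nonempty {x : JZero N | a • x = y} with h | ⟨x₀, hx₀⟩
  · rw [h]; exact Set.finite_empty
  · refine Set.Finite.subset (ha.image fun t => x₀ + t) ?_
    intro x hx
    refine ⟨x - x₀, ?_, add_sub_cancel x₀ x⟩
    rw [hmemA, nsmul_sub]
    have h1 : a • x = y := hx
    have h2 : a • x₀ = y := hx₀
    rw [h1, h2, sub_self]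

/-- `J[p ^ n]` finite for all primes `p` ⇒ `J[n]` finite for all `n > 0`. -/
theorem torsionFinite_of_prime_pow (N : ℕ)
    (h : ∀ p : ℕ, p.Prime → ∀ n : ℕ, TorsionFinite N (p ^ n)) :
    ∀ n : ℕ, 0 < n → TorsionFinite N n := by
  intro n hn
  induction n using Nat.recOnMul with
  | zero => exact absurd hn (lt_irrefl 0)
  | one => simpa using h 2 Nat.prime_two 0
  | prime p hp => simpa using h p hp 1
  | mul a b iha ihb =>
    have ha : 0 < a := Nat.pos_of_ne_zero fun h0 => by simp [h0] at hn
    have hb : 0 < b := Nat.pos_of_ne_zero fun h0 => by simp [h0] at hn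
    exact torsionFinite_mul N a b (iha ha) (ihb hb)

section Trunk

variable (hK : ∀ (N p : ℕ) [NeZero N], p.Prime → Rep.KummerCmp N p)
  (hE : ∀ (N p : ℕ) [NeZero N], p.Prime → TorsionESRelation N p)

include hK in
/-- J1 for all `n > 0` from `(K)`. -/
theorem torsionFinite_of_trunk (N n : ℕ) [NeZero N] (hn : 0 < n) : TorsionFinite N n :=
  torsionFinite_of_prime_pow N
    (fun p hp m =>
      haveI : Fact p.Prime := ⟨hp⟩
      Rep.TateKummer.torsionFinite_of_kummerCmp (hK N p hp) m) n hn

include hK hE in
/-- **S29** (frozen statement) from `(K)` and `(E)`. -/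
theorem S29_of_trunk
    {N : ℕ} {g : CuspForm (CongruenceSubgroup.Gamma0 N) 2} (hg : g.IsNormalizedEigenform)
    {p : ℕ} (hp : p.Prime) {k : Type} [Field k] [CharP k p]
    (φ : integralClosure ℤ ℂ →+* k) :
    ∃ ρ : ResidualGaloisRep k, ρ.IsAttachedTo g φ ∧
      ∀ ℓ : ℕ, ℓ.Prime → ¬ ℓ ∣ N * p → ρ.IsUnramifiedAt ℓ :=
  S29_of_interfaces frobGenerating_trunk hE
    (fun N n _ hn => torsionFinite_of_trunk hK N n hn)
    (fun N n _ hn => Jac.FiniteLevel.torsionFiniteLevel_of_torsionFinite N n
      (torsionFinite_of_trunk hK N n hn))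
    (fun N p _ hp => eigenFunctionalModP_of_kummerCmp N p (hK N p hp))
    (fun N _ => Cong.heckeGaloisCommute N) hg hp φ

include hK hE in
/-- **S42** (frozen statement) from `(K)` and `(E)`. -/
theorem S42_of_trunk (P : FreyPackage) :
    ∀ M : ℕ, 0 < M → P.EigenformResidualAttachmentAt M :=
  S42_of_interfaces frobGenerating_trunk hE
    (fun N n _ hn => torsionFinite_of_trunk hK N n hn)
    (fun N n _ hn => Jac.FiniteLevel.torsionFiniteLevel_of_torsionFinite N n
      (torsionFinite_of_trunk hK N n hn))
    (fun N p _ hp => eigenFunctionalModP_of_kummerCmp N p (hK N p hp))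
    (fun N _ => Cong.heckeGaloisCommute N) P

include hK hE in
/-- The single geometric target of the adic statements (S30, S31) from `(K)` and `(E)`. -/
theorem tateCmpAExists_of_trunk : Rep.TateCmpAExists :=
  Rep.TateKummer.tateCmpAExists_of
    (fun p N hp _ => hK N p hp.out) (fun p N hp _ => hE N p hp.out)

end Trunk

end Fermat.Agent.ESJ
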